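/-
Derivations with values in Laurent series over a perfect field of positive characteristic kill
whatever is algebraic over a series with a simple pole.
-/
import Mathlib

set_option autoImplicit false

noncomputable section

namespace Fermat.Agent.Mazur3.Inertia

open Polynomial

variable {η : ℕ} {k : Type*} [Field k]

/-- Evaluation of a bivariate polynomial at two series. -/
def evalPair (j w : LaurentSeries k) : (k[X])[X] →+* LaurentSeries k :=
  Polynomial.eval₂RingHom (Polynomial.eval₂RingHom HahnSeries.C j) w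

/-- A vanishing sum of series of pairwise different orders is trivial. -/
theorem eq_zero_of_sum_eq_zero_of_order {ι : Type*} {s : Finset ι} {x : ι → LaurentSeries k}
    (hsum : ∑ i ∈ s, x i = 0)
    (hord : ∀ i ∈ s, ∀ i' ∈ s, x i ≠ 0 → x i' ≠ 0 → (x i).order = (x i').order → i = i') :
    ∀ i ∈ s, x i = 0 := by
  classical
  by_contra hne
  push Not at hne
  obtain ⟨i₀, hi₀, h₀⟩ := hne
  obtain ⟨m, hm, hmin⟩ := (s.filter fun i => x i ≠ 0).exists_min_image (fun i => (x i).order)
    ⟨i₀, Finset.mem_filter.mpr ⟨hi₀, h₀⟩⟩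
  obtain ⟨hms, hm0⟩ := Finset.mem_filter.mp hm
  have h := congrArg (fun f : LaurentSeries k => f.coeff (x m).order) hsum
  simp only [HahnSeries.coeff_sum, HahnSeries.coeff_zero] at h
  rw [Finset.sum_eq_single_of_mem m hms fun i hi him => ?_] at h
  · exact hm0 (HahnSeries.coeff_order_eq_zero.mp h)
  · by_cases hi0 : x i = 0
    · rw [hi0, HahnSeries.coeff_zero]
    · exact HahnSeries.coeff_eq_zero_of_lt_order (lt_of_le_of_ne
        (hmin i (Finset.mem_filter.mpr ⟨hi, hi0⟩))
        fun he => him (hord i hi m hms hi0 hm0 he.symm))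

theorem order_pow_series (f : LaurentSeries k) (i : ℕ) : (f ^ i).order = i * f.order := by
  rw [HahnSeries.order_pow, nsmul_eq_mul]

variable {j : LaurentSeries k}

/-- A series with a simple pole is transcendental. -/
theorem eq_zero_of_eval₂_pole_eq_zero (hj : j.order = -1) {B : k[X]}
    (h : B.eval₂ HahnSeries.C j = 0) : B = 0 := by
  have hj0 : j ≠ 0 := fun h0 => by simp [h0] at hj
  rw [eval₂_eq_sum, Polynomial.sum_def] at h
  have key := eq_zero_of_sum_eq_zero_of_order h fun i hi i' hi' h1 h2 he => ?_
  · ext i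
    by_contra hi
    exact mul_ne_zero ((map_ne_zero_iff _ HahnSeries.C_injective).mpr hi) (pow_ne_zero i hj0)
      (key i (mem_support_iff.mpr hi))
  · rw [HahnSeries.order_mul (left_ne_zero_of_mul h1) (right_ne_zero_of_mul h1),
      HahnSeries.order_mul (left_ne_zero_of_mul h2) (right_ne_zero_of_mul h2),
      HahnSeries.C_apply, HahnSeries.C_apply,
      HahnSeries.order_single (Polynomial.mem_support_iff.mp hi),
      HahnSeries.order_single (Polynomial.mem_support_iff.mp hi'), order_pow_series,
      order_pow_series, hj] at he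
    omega

variable [hη : Fact η.Prime] [CharP k η]

/-- Over a perfect field a polynomial is a combination of `η`-th powers. -/
theorem exists_decomp (hroot : ∀ a : k, ∃ b, b ^ η = a) (B : k[X]) :
    ∃ C : ℕ → k[X], B = ∑ r ∈ Finset.range η, X ^ r * C r ^ η := by
  induction B using Polynomial.induction_on' with
  | add p q hp hq =>
    obtain ⟨C, rfl⟩ := hp
    obtain ⟨D, rfl⟩ := hq
    exact ⟨C + D, by simp only [Pi.add_apply, add_pow_char, mul_add, Finset.sum_add_distrib]⟩
  | monomial e c =>
    obtain ⟨b, rfl⟩ := hroot c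
    refine ⟨fun r => if r = e % η then monomial (e / η) b else 0, ?_⟩
    rw [Finset.sum_eq_single_of_mem (e % η) (Finset.mem_range.mpr (Nat.mod_lt _ hη.out.pos))
      fun r _ hr => by simp only [if_neg hr, zero_pow hη.out.ne_zero, mul_zero]]
    simp only [if_true]
    rw [monomial_pow, X_pow_eq_monomial, monomial_mul_monomial, one_mul]
    congr 2
    exact (Nat.mod_add_div' e η).symm

theorem evalPair_C (w : LaurentSeries k) (B : k[X]) :
    evalPair j w (C B) = B.eval₂ HahnSeries.C j := Polynomial.eval₂_C _ _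

theorem evalPair_X (w : LaurentSeries k) : evalPair j w X = w := Polynomial.eval₂_X _ _

/-- The minimal relation of a series over a series with a simple pole is separable. -/
theorem exists_derivative_ne_zero (hroot : ∀ a : k, ∃ b, b ^ η = a) (hj : j.order = -1)
    {w : LaurentSeries k} {P : (k[X])[X]} (hP : P ≠ 0) (h : evalPair j w P = 0) :
    ∃ Q, evalPair j w Q = 0 ∧ evalPair j w (derivative Q) ≠ 0 := by
  induction hd : P.natDegree using Nat.strong_induction_on generalizing P with
  | _ d ih =>
  subst hd
  by_cases h1 : evalPair j w (derivative P) = 0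
  swap
  · exact ⟨P, h, h1⟩
  rcases Nat.eq_zero_or_pos P.natDegree with hd | hd
  · rw [eq_C_of_natDegree_eq_zero hd, evalPair_C] at h
    exact absurd (by rw [eq_C_of_natDegree_eq_zero hd, eq_zero_of_eval₂_pole_eq_zero hj h, map_zero]) hP
  by_cases h2 : derivative P = 0
  swap
  · exact ih _ (natDegree_derivative_lt hd.ne') h2 h1 rfl
  have hj0 : j ≠ 0 := fun h0 => by simp [h0] at hj
  set Q := contract η P
  have hQ : expand k[X] η Q = P := expand_contract η h2 hη.out.ne_zero
  choose C' hC' using fun i => exists_decomp hroot (Q.coeff i)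
  let R : ℕ → (k[X])[X] := fun r => ∑ i ∈ Finset.range (Q.natDegree + 1), monomial i (C' i r)
  have hQP : P = ∑ r ∈ Finset.range η, C (X ^ r) * R r ^ η := by
    rw [← hQ]
    conv_lhs => rw [Q.as_sum_range' _ (Nat.lt_succ_self _)]
    simp only [map_sum, expand_monomial, R, sum_pow_char, monomial_pow, Finset.mul_sum,
      C_mul_monomial]
    rw [Finset.sum_comm]
    refine Finset.sum_congr rfl fun i _ => ?_
    rw [← map_sum, ← hC' i]
  rw [hQP, map_sum] at h
  have hR : ∀ r ∈ Finset.range η, evalPair j w (R r) = 0 := by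
    have key := eq_zero_of_sum_eq_zero_of_order h fun r hr r' hr' h3 h4 he => ?_
    · intro r hr
      have := key r hr
      rw [map_mul, evalPair_C, eval₂_X_pow, map_pow] at this
      exact eq_zero_of_pow_eq_zero ((mul_eq_zero.mp this).resolve_left (pow_ne_zero r hj0))
    · simp only [map_mul, map_pow, evalPair_C, eval₂_X] at he h3 h4
      rw [HahnSeries.order_mul (left_ne_zero_of_mul h3) (right_ne_zero_of_mul h3),
        HahnSeries.order_mul (left_ne_zero_of_mul h4) (right_ne_zero_of_mul h4), order_pow_series,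
        order_pow_series, order_pow_series, order_pow_series, hj] at he
      simp only [Finset.mem_range] at hr hr'
      obtain ⟨c, hc⟩ : ∃ c : ℤ, (r : ℤ) - r' = η * c :=
        ⟨(evalPair j w (R r)).order - (evalPair j w (R r')).order, by linarith⟩
      rcases eq_or_ne c 0 with rfl | hc0
      · rw [mul_zero] at hc; omega
      · have hub : (η : ℤ) * 1 ≤ (η : ℤ) * |c| :=
          mul_le_mul_of_nonneg_left (Int.one_le_abs hc0) (Int.natCast_nonneg η)
        have habs : |(r : ℤ) - r'| = (η : ℤ) * |c| := by rw [hc, abs_mul, Nat.abs_cast]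
        have hlt : |(r : ℤ) - r'| < η := abs_lt.mpr ⟨by omega, by omega⟩
        omega
  obtain ⟨r, hr, hr0⟩ : ∃ r ∈ Finset.range η, R r ≠ 0 := by
    by_contra hall
    push Not at hall
    exact hP (by rw [hQP, Finset.sum_eq_zero fun r hr => by
      rw [hall r hr, zero_pow hη.out.ne_zero, mul_zero]])
  refine ih _ ?_ hr0 (hR r hr) rfl
  calc (R r).natDegree ≤ Q.natDegree := natDegree_sum_le_of_forall_le _ _ fun i hi =>
        (natDegree_monomial_le _).trans (Nat.lt_succ_iff.mp (Finset.mem_range.mp hi))
    _ < P.natDegree := by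
      rw [← hQ, natDegree_expand] at hd ⊢
      exact lt_mul_of_one_lt_right (Nat.pos_of_mul_pos_right hd) hη.out.one_lt

variable {R : Type*} [CommRing R]

/-- A derivation killing constants, a series with a simple pole and the kernel of reduction kills
all elements algebraic over them. -/
theorem deriv_eq_zero (hroot : ∀ a : k, ∃ b, b ^ η = a) (ρ : R →+* LaurentSeries k)
    (d : R →+ LaurentSeries k) (hd : ∀ a b, d (a * b) = ρ a * d b + ρ b * d a)
    (hker : ∀ a, ρ a = 0 → d a = 0) (J : R) (hJ : (ρ J).order = -1) (hdJ : d J = 0)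
    (hc : ∀ c : k, ∃ a : R, ρ a = HahnSeries.C c ∧ d a = 0) {z : R} {P : (k[X])[X]} (hP : P ≠ 0)
    (h : evalPair (ρ J) (ρ z) P = 0) : d z = 0 := by
  by_contra hz
  have h1 : d 1 = 0 := by
    have := hd 1 1
    rw [mul_one, ρ.map_one, one_mul] at this
    exact add_eq_left.mp this.symm
  have hpow : ∀ i : ℕ, d (z ^ i) = (i : LaurentSeries k) * ρ z ^ (i - 1) * d z := by
    intro i
    induction i with
    | zero => rw [pow_zero, h1, Nat.cast_zero, zero_mul, zero_mul]
    | succ i ih =>
      rw [pow_succ, hd, ih, Nat.add_sub_cancel, map_pow]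
      rcases i with _ | m
      · simp
      · rw [Nat.add_sub_cancel, pow_succ]
        push_cast
        ring
  have hB : ∀ B : k[X], ∃ b : R, ρ b = B.eval₂ HahnSeries.C (ρ J) ∧ d b = 0 := by
    intro B
    induction B using Polynomial.induction_on' with
    | add p q hp hq =>
      obtain ⟨b, hb, hb'⟩ := hp
      obtain ⟨b₂, hb₂, hb₂'⟩ := hq
      exact ⟨b + b₂, by rw [map_add, hb, hb₂, eval₂_add], by rw [map_add, hb', hb₂', add_zero]⟩
    | monomial e c =>
      obtain ⟨a, ha, ha'⟩ := hc c
      have hJe : d (J ^ e) = 0 := by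
        induction e with
        | zero => rw [pow_zero, h1]
        | succ e ih => rw [pow_succ, hd, ih, hdJ, mul_zero, mul_zero, add_zero]
      exact ⟨a * J ^ e, by rw [map_mul, map_pow, ha, eval₂_monomial],
        by rw [hd, hJe, ha', mul_zero, mul_zero, add_zero]⟩
  have hlift : ∀ Q : (k[X])[X], ∃ a : R, ρ a = evalPair (ρ J) (ρ z) Q ∧
      d a = evalPair (ρ J) (ρ z) (derivative Q) * d z := by
    intro Q
    induction Q using Polynomial.induction_on' with
    | add p q hp hq =>
      obtain ⟨b, hb, hb'⟩ := hp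
      obtain ⟨b₂, hb₂, hb₂'⟩ := hq
      exact ⟨b + b₂, by rw [map_add, hb, hb₂, map_add],
        by rw [map_add, hb', hb₂', derivative_add, map_add, add_mul]⟩
    | monomial i B =>
      obtain ⟨b, hb, hb'⟩ := hB B
      refine ⟨b * z ^ i, by rw [map_mul, map_pow, hb]; simp [evalPair], ?_⟩
      rw [hd, hb', mul_zero, add_zero, hb, hpow, derivative_monomial]
      simp [evalPair]
      ring
  obtain ⟨Q, hQ, hQ'⟩ := exists_derivative_ne_zero hroot hJ hP h
  obtain ⟨a, ha, ha'⟩ := hlift Q
  rw [hker a (ha.trans hQ)] at ha'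
  exact mul_ne_zero hQ' hz ha'.symm

end Fermat.Agent.Mazur3.Inertia
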