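/-
Discretely valued fields with a finite group of automorphisms: approximation of elements fixed by
the stabiliser of the valuation by invariant ones, and rigidity of automorphisms acting trivially
on the residues.
-/
import Fermat.Agent.Mazur3.Inertia.Residual

set_option autoImplicit false

noncomputable section

namespace Fermat.Agent.Mazur3.Inertia

/-- A discrete valuation ring of a field with a map of its residues into a field. -/
structure GaussVal (E K : Type*) [Field E] [Field K] where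
  V : Subring E
  ρ : V →+* K
  ϖ : V
  ϖ_ne : (ϖ : E) ≠ 0
  ρ_ϖ : ρ ϖ = 0
  dich : ∀ z : E, z ≠ 0 → ∃ (m : ℤ) (u : V), ρ u ≠ 0 ∧ z = (ϖ : E) ^ m * u

namespace GaussVal

variable {E K : Type*} [Field E] [Field K] (G : GaussVal E K)

theorem ρ_ne_zero_ne {u : G.V} (hu : G.ρ u ≠ 0) : (u : E) ≠ 0 := fun h0 =>
  hu (by rw [show u = 0 from Subtype.ext h0, map_zero])

theorem zpow_mem_mul {m : ℤ} (hm : 0 ≤ m) (u : G.V) :
    ∃ w : G.V, (G.ϖ : E) ^ m * u = w ∧ (0 < m → G.ρ w = 0) := by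
  obtain ⟨i, rfl⟩ := Int.eq_ofNat_of_zero_le hm
  refine ⟨G.ϖ ^ i * u, by push_cast; rw [zpow_natCast], fun hi => ?_⟩
  rw [map_mul, map_pow, G.ρ_ϖ, zero_pow (by omega), zero_mul]

theorem nonneg_of_mem {m : ℤ} {u : G.V} (hu : G.ρ u ≠ 0) (h : (G.ϖ : E) ^ m * u ∈ G.V) :
    0 ≤ m := by
  by_contra hm
  obtain ⟨i, hi⟩ : ∃ i : ℕ, m = -((i + 1 : ℕ) : ℤ) := ⟨(-m - 1).toNat, by omega⟩
  refine hu ?_
  have : G.ϖ ^ (i + 1) * ⟨_, h⟩ = u := Subtype.ext (by
    push_cast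
    rw [hi, zpow_neg, zpow_natCast, ← mul_assoc, mul_inv_cancel₀ (pow_ne_zero _ G.ϖ_ne), one_mul])
  rw [← this, map_mul, map_pow, G.ρ_ϖ, zero_pow (by omega), zero_mul]

theorem inv_mem_V {u : G.V} (hu : G.ρ u ≠ 0) : (u : E)⁻¹ ∈ G.V := by
  obtain ⟨m, w, hw, he⟩ := G.dich _ (inv_ne_zero (G.ρ_ne_zero_ne hu))
  have h0 : 0 ≤ -m := by
    refine G.nonneg_of_mem (u := 1) (by rw [map_one]; exact one_ne_zero) ?_
    have h1 : (G.ϖ : E) ^ m * w * u = 1 := by rw [← he, inv_mul_cancel₀ (G.ρ_ne_zero_ne hu)]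
    rw [OneMemClass.coe_one, mul_one, zpow_neg,
      inv_eq_of_mul_eq_one_right (show (G.ϖ : E) ^ m * ((w : E) * u) = 1 by rw [← h1]; ring)]
    exact mul_mem w.2 u.2
  rcases h0.eq_or_lt with h | h
  · rw [he, show m = 0 by omega, zpow_zero, one_mul]; exact w.2
  · exfalso
    obtain ⟨w', hw', hρ⟩ := G.zpow_mem_mul h0 1
    have h1 : w' = w * u := Subtype.ext (by
      rw [← hw', OneMemClass.coe_one, mul_one, zpow_neg]
      refine inv_eq_of_mul_eq_one_right ?_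
      push_cast
      rw [← mul_assoc, ← he, inv_mul_cancel₀ (G.ρ_ne_zero_ne hu)])
    exact mul_ne_zero hw hu (by rw [← map_mul, ← h1, hρ h])

theorem exists_unit {z : E} (hz : z ∈ G.V) (hρ : G.ρ ⟨z, hz⟩ ≠ 0) :
    ∃ w : G.V, z * w = 1 :=
  ⟨⟨_, G.inv_mem_V hρ⟩, mul_inv_cancel₀ (G.ρ_ne_zero_ne hρ)⟩

theorem inv_mem_of_not_mem {z : E} (hz : z ∉ G.V) :
    ∃ h : z⁻¹ ∈ G.V, G.ρ ⟨z⁻¹, h⟩ = 0 := by
  have hz0 : z ≠ 0 := fun h => hz (h ▸ zero_mem _)
  obtain ⟨m, u, hu, he⟩ := G.dich z hz0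
  have hm : 0 < -m := by
    by_contra h
    obtain ⟨w, hw, -⟩ := G.zpow_mem_mul (show 0 ≤ m by omega) u
    exact hz (he ▸ hw ▸ w.2)
  obtain ⟨w, hw, hρ⟩ := G.zpow_mem_mul hm.le ⟨_, G.inv_mem_V hu⟩
  have he' : z⁻¹ = w := by rw [← hw, he, mul_inv, zpow_neg]
  exact ⟨he' ▸ w.2, (congrArg G.ρ (Subtype.ext he')).trans (hρ hm)⟩

theorem exists_eq_mul {z : G.V} (hz : G.ρ z = 0) : ∃ w : G.V, z = G.ϖ * w := by
  rcases eq_or_ne (z : E) 0 with h0 | h0
  · exact ⟨0, Subtype.ext (by simp [h0])⟩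
  obtain ⟨m, u, hu, he⟩ := G.dich _ h0
  have hm : 0 ≤ m := G.nonneg_of_mem hu (he ▸ z.2)
  rcases hm.eq_or_lt with h | h
  · exact absurd hz (by rwa [show z = u from Subtype.ext (by rw [he, ← h, zpow_zero, one_mul])])
  · obtain ⟨w, hw, -⟩ := G.zpow_mem_mul (show 0 ≤ m - 1 by omega) u
    refine ⟨w, Subtype.ext ?_⟩
    rw [he, Subring.coe_mul, ← hw, ← mul_assoc, ← zpow_one_add₀ G.ϖ_ne, add_sub_cancel]

theorem eq_zero_of_forall_dvd {z : G.V} (hz : ∀ k : ℕ, G.ϖ ^ k ∣ z) : z = 0 := by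
  by_contra h0
  obtain ⟨m, u, hu, he⟩ := G.dich (z : E) fun h => h0 (Subtype.ext h)
  obtain ⟨w, hw⟩ := hz (m.toNat + 1)
  have hm : 0 ≤ m := G.nonneg_of_mem hu (he ▸ z.2)
  have h1 : 0 ≤ m - (m.toNat + 1 : ℕ) := by
    refine G.nonneg_of_mem hu ?_
    rw [zpow_sub₀ G.ϖ_ne, zpow_natCast, div_mul_eq_mul_div, ← he, hw, Subring.coe_mul,
      Subring.coe_pow, mul_div_cancel_left₀ _ (pow_ne_zero _ G.ϖ_ne)]
    exact w.2
  omega

/-- A map preserving the valuation ring and the uniformizer respects congruence of residues. -/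
theorem ρ_congr (g : E →+* E) (hg : ∀ z ∈ G.V, g z ∈ G.V) (hgϖ : g G.ϖ = G.ϖ) {u v : G.V}
    (h : G.ρ u = G.ρ v) : G.ρ ⟨_, hg u u.2⟩ = G.ρ ⟨_, hg v v.2⟩ := by
  obtain ⟨q, hq⟩ := G.exists_eq_mul (z := u - v) (by rw [map_sub, h, sub_self])
  have h2 : (⟨_, hg u u.2⟩ : G.V) - ⟨_, hg v v.2⟩ = G.ϖ * ⟨_, hg q q.2⟩ := Subtype.ext (by
    have h3 := congrArg (fun z : G.V => g (z : E)) hq
    simp only [Subring.coe_mul, AddSubgroupClass.coe_sub, map_sub, map_mul, hgϖ] at h3 ⊢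
    exact h3)
  rw [← sub_eq_zero, ← map_sub, h2, map_mul, G.ρ_ϖ, zero_mul]

section Approx

variable {H : Type*} [Group H] [Finite H] [MulSemiringAction H E]

/-- The stabiliser of the valuation ring. -/
def stab : Subgroup H where
  carrier := {g | ∀ z ∈ G.V, g • z ∈ G.V}
  one_mem' := fun z hz => by rwa [one_smul]
  mul_mem' {a b} ha hb z hz := by rw [mul_smul]; exact ha _ (hb _ hz)
  inv_mem' {g} hg z hz := by
    obtain ⟨i, hi, hpow⟩ := (isOfFinOrder_of_finite g).exists_pow_eq_one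
    rw [← eq_inv_of_mul_eq_one_left (show g ^ (i - 1) * g = 1 by
      rw [← pow_succ, Nat.sub_add_cancel hi, hpow])]
    generalize i - 1 = k
    induction k with
    | zero => rwa [pow_zero, one_smul]
    | succ k ih => rw [pow_succ', mul_smul]; exact hg _ ih

theorem mem_stab {g : H} : g ∈ G.stab ↔ ∀ z ∈ G.V, g • z ∈ G.V := Iff.rfl

variable (hfix : ∀ h : H, h • (G.ϖ : E) = G.ϖ)
  (hconst : ∀ T : Finset K, ∃ c : G.V, (∀ h : H, h • (c : E) = c) ∧ G.ρ c ≠ 0 ∧ G.ρ c ∉ T)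
include hfix hconst

/-- An element integral at all conjugates separating two of them. -/
theorem exists_separating {g : H} (hg : g ∉ G.stab) :
    ∃ t : E, (∀ h : H, h • t ∈ G.V) ∧ (∃ hm : t ∈ G.V, G.ρ ⟨t, hm⟩ = 1) ∧
      ∃ hm : g • t ∈ G.V, G.ρ ⟨g • t, hm⟩ = 0 := by
  classical
  rw [mem_stab] at hg
  push Not at hg
  obtain ⟨a₀, ha₀, hga⟩ := hg
  set a : E := (G.ϖ : E) * a₀ ^ 2 with hadef
  have ha : a ∈ G.V := mul_mem G.ϖ.2 (pow_mem ha₀ 2)
  have hρa : G.ρ ⟨a, ha⟩ = 0 := by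
    rw [show (⟨a, ha⟩ : G.V) = G.ϖ * ⟨a₀, ha₀⟩ ^ 2 from rfl, map_mul, G.ρ_ϖ, zero_mul]
  have hga' : g • a ∉ G.V := fun hmem => by
    rw [hadef, smul_mul', smul_pow', hfix] at hmem
    obtain ⟨m, u, hu, he⟩ := G.dich (g • a₀) fun h0 => hga (h0 ▸ zero_mem _)
    have hm : m < 0 := by
      by_contra h
      obtain ⟨w, hw, -⟩ := G.zpow_mem_mul (show 0 ≤ m by omega) u
      exact hga (he ▸ hw ▸ w.2)
    have h1 : (0 : ℤ) ≤ 1 + 2 * m := by
      refine G.nonneg_of_mem (u := u ^ 2) (by rw [map_pow]; exact pow_ne_zero _ hu) ?_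
      rw [he, mul_pow, ← zpow_natCast ((G.ϖ : E) ^ m), ← zpow_mul, ← mul_assoc,
        ← zpow_one_add₀ G.ϖ_ne] at hmem
      rw [Subring.coe_pow, mul_comm 2 m]
      exact hmem
    omega
  let _ : Fintype H := Fintype.ofFinite H
  let r : H → K := fun h => if hm : h • a ∈ G.V then G.ρ ⟨h • a, hm⟩ else 0
  obtain ⟨c, hc, hc0, hcT⟩ := hconst (Finset.univ.image fun h => -(r h)⁻¹)
  set s : E := 1 + (c : E) * a
  have key : ∀ h : H, ∃ hm : h • s⁻¹ ∈ G.V,
      (∀ hm' : h • a ∈ G.V, G.ρ ⟨h • s⁻¹, hm⟩ = (1 + G.ρ c * G.ρ ⟨h • a, hm'⟩)⁻¹) ∧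
      (h • a ∉ G.V → G.ρ ⟨h • s⁻¹, hm⟩ = 0) := by
    intro h
    have hs : h • s⁻¹ = (1 + (c : E) * (h • a))⁻¹ := by
      rw [smul_inv'', smul_add, smul_one, smul_mul', hc]
    by_cases hm' : h • a ∈ G.V
    · have hne : G.ρ (1 + c * ⟨h • a, hm'⟩) ≠ 0 := by
        rw [map_add, map_one, map_mul]
        intro h0
        refine hcT (Finset.mem_image.mpr ⟨h, Finset.mem_univ _, ?_⟩)
        simp only [r, dif_pos hm']
        have hb : G.ρ ⟨h • a, hm'⟩ ≠ 0 := fun hb => by simp [hb] at h0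
        refine eq_of_sub_eq_zero (mul_right_cancel₀ hb ?_)
        rw [sub_mul, neg_mul, inv_mul_cancel₀ hb, zero_mul]
        linear_combination -h0
      have hmem := G.inv_mem_V hne
      refine ⟨hs ▸ hmem, fun _ => ?_, fun h' => absurd hm' h'⟩
      refine eq_inv_of_mul_eq_one_left ?_
      rw [← map_one G.ρ, ← map_mul, ← map_add, ← map_mul]
      exact congrArg G.ρ (Subtype.ext (by
        show h • s⁻¹ * (1 + (c : E) * (h • a)) = 1
        rw [hs]; exact inv_mul_cancel₀ (G.ρ_ne_zero_ne hne)))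
    · have hnot : 1 + (c : E) * (h • a) ∉ G.V := fun hh => hm' (by
        have := mul_mem (G.inv_mem_V hc0) (sub_mem hh G.V.one_mem)
        rwa [add_sub_cancel_left, ← mul_assoc, inv_mul_cancel₀ (G.ρ_ne_zero_ne hc0), one_mul]
          at this)
      obtain ⟨hmem, h0⟩ := G.inv_mem_of_not_mem hnot
      exact ⟨hs ▸ hmem, fun h' => absurd h' hm', fun _ =>
        (congrArg G.ρ (Subtype.ext hs)).trans h0⟩
  refine ⟨s⁻¹, fun h => (key h).1, ?_, ⟨(key g).1, (key g).2.2 hga'⟩⟩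
  obtain ⟨hm, h1, -⟩ := key 1
  simp only [one_smul] at hm h1
  exact ⟨hm, by rw [h1 ha, hρa, mul_zero, add_zero, inv_one]⟩

/-- An element close to one at the given place and close to zero at another. -/
theorem exists_sharp (N : ℕ) {g : H} (hg : g ∉ G.stab) :
    ∃ e : E, (∀ h : H, h • e ∈ G.V) ∧ (∃ w : G.V, e - 1 = (G.ϖ : E) ^ N * w) ∧
      ∃ w : G.V, g • e = (G.ϖ : E) ^ N * w := by
  obtain ⟨t, hint, ⟨ht1, h1⟩, ⟨ht0, h0⟩⟩ := G.exists_separating hfix hconst hg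
  obtain ⟨b, hb⟩ := G.exists_eq_mul (z := ⟨g • t, ht0⟩) h0
  obtain ⟨a, ha⟩ := G.exists_eq_mul (z := 1 - ⟨t, ht1⟩ ^ N)
    (by rw [map_sub, map_one, map_pow, h1, one_pow, sub_self])
  refine ⟨1 - (1 - t ^ N) ^ N, fun h => ?_, ⟨-a ^ N, ?_⟩, ?_⟩
  · rw [smul_sub, smul_one, smul_pow', smul_sub, smul_one, smul_pow']
    exact sub_mem G.V.one_mem (pow_mem (sub_mem G.V.one_mem (pow_mem (hint h) N)) N)
  · rw [show 1 - t ^ N = (G.ϖ : E) * a from congrArg Subtype.val ha, mul_pow]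
    push_cast
    ring
  · rw [smul_sub, smul_one, smul_pow', smul_sub, smul_one, smul_pow',
      show g • t = (G.ϖ : E) * b from congrArg Subtype.val hb]
    obtain ⟨q, hq⟩ : ((G.ϖ * b) ^ N : G.V) ∣ 1 - (1 - (G.ϖ * b) ^ N) ^ N := by
      simpa using sub_dvd_pow_sub_pow (1 : G.V) (1 - (G.ϖ * b) ^ N) N
    refine ⟨b ^ N * q, ?_⟩
    have := congrArg Subtype.val hq
    push_cast at this ⊢
    rw [this, mul_pow]
    ring

/-- An element fixed by the stabiliser is close to an invariant one. -/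
theorem exists_fixed_approx {x : E} (hx : ∀ h : H, h • x ∈ G.V)
    (hxs : ∀ d ∈ (G.stab : Subgroup H), d • x = x) (N : ℕ) :
    ∃ y : E, (∀ h : H, h • y = y) ∧ ∃ w : G.V, y - x = (G.ϖ : E) ^ N * w := by
  classical
  let _ : Fintype H := Fintype.ofFinite H
  let Q : Type _ := H ⧸ (G.stab : Subgroup H)
  let _ : Fintype Q := Fintype.ofFinite _
  choose e₀ he₀ he₁ he₂ using fun g : {g : H // g ∉ G.stab} => G.exists_sharp hfix hconst N g.2
  set P : E := ∏ g, e₀ g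
  have hP : ∀ h : H, h • P ∈ G.V := fun h => by
    rw [Finset.smul_prod']; exact prod_mem fun g _ => he₀ g h
  let Ids : Ideal G.V := Ideal.span {G.ϖ ^ N}
  have hπ : ∀ {z : E} (hz : z ∈ G.V) (w : G.V), z = (G.ϖ : E) ^ N * w → ⟨z, hz⟩ ∈ Ids :=
    fun hz w he => Ideal.mem_span_singleton.mpr ⟨w, Subtype.ext (he.trans (by push_cast; rfl))⟩
  set e : E := ∏ d : (G.stab : Subgroup H), (d : H) • P
  have he : ∀ h : H, h • e ∈ G.V := fun h => by
    rw [Finset.smul_prod']; exact prod_mem fun d _ => by rw [← mul_smul]; exact hP _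
  have hstab : ∀ d ∈ (G.stab : Subgroup H), d • e = e := fun d hd => by
    rw [Finset.smul_prod']
    exact Fintype.prod_equiv (Equiv.mulLeft (⟨d, hd⟩ : (G.stab : Subgroup H))) _ _
      fun d' => (mul_smul _ _ _).symm
  have hone : ∀ {z : G.V}, z - 1 ∈ Ids → ∀ {z' : G.V}, z' - 1 ∈ Ids → z * z' - 1 ∈ Ids :=
    fun {z} hz {z'} hz' => by
      rw [show z * z' - 1 = (z - 1) * z' + (z' - 1) by ring]
      exact add_mem (Ids.mul_mem_right _ hz) hz'
  have he1 : ∀ hm : e ∈ G.V, (⟨e, hm⟩ : G.V) - 1 ∈ Ids := fun hm => by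
    let f : ↥(G.stab : Subgroup H) → G.V := fun d => ⟨(d : H) • P, hP d⟩
    rw [show (⟨e, hm⟩ : G.V) = ∏ d, f d from Subtype.ext (by push_cast; rfl)]
    refine Finset.prod_induction f (fun z => z - 1 ∈ Ids) (fun _ _ h h' => hone h h') (by simp)
      fun d _ => ?_
    rw [show f d = ∏ g, ⟨(d : H) • e₀ g, he₀ g d⟩ from Subtype.ext (by
      push_cast; exact Finset.smul_prod' ..)]
    refine Finset.prod_induction _ (fun z => z - 1 ∈ Ids) (fun _ _ h h' => hone h h') (by simp)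
      fun g _ => ?_
    obtain ⟨w, hw⟩ := he₁ g
    have hd : (d : H) • (w : E) ∈ G.V := d.2 _ w.2
    refine hπ _ ⟨_, hd⟩ ?_
    show (d : H) • e₀ g - 1 = _
    rw [← hfix d, ← smul_pow', ← smul_mul', ← hw, smul_sub, smul_one]
  have he0 : ∀ h ∉ (G.stab : Subgroup H), (⟨h • e, he h⟩ : G.V) ∈ Ids := fun h hh => by
    obtain ⟨w, hw⟩ := he₂ ⟨h, hh⟩
    have h1 : (⟨h • e₀ ⟨h, hh⟩, he₀ _ h⟩ : G.V) ∣ ⟨h • P, hP h⟩ := by
      rw [show (⟨h • P, hP h⟩ : G.V) = ∏ g, ⟨h • e₀ g, he₀ g h⟩ from Subtype.ext (by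
        push_cast; exact Finset.smul_prod' ..)]
      exact Finset.dvd_prod_of_mem _ (Finset.mem_univ _)
    have h2 : (⟨h • P, hP h⟩ : G.V) ∣ ⟨h • e, he h⟩ := by
      rw [show (⟨h • e, he h⟩ : G.V) = ∏ d : (G.stab : Subgroup H), ⟨h • ((d : H) • P),
        by rw [← mul_smul]; exact hP _⟩ from Subtype.ext (by push_cast; exact Finset.smul_prod' ..)]
      refine dvd_trans (dvd_of_eq ?_) (Finset.dvd_prod_of_mem _ (Finset.mem_univ 1))
      exact Subtype.ext (by simp)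
    exact Ids.mem_of_dvd (h1.trans h2) (hπ _ w hw)
  set x' : E := e * x
  have hx's : ∀ d ∈ (G.stab : Subgroup H), d • x' = x' := fun d hd => by
    rw [smul_mul', hstab d hd, hxs d hd]
  refine ⟨∑ q : Q, q.out • x', fun h => ?_, ?_⟩
  · rw [Finset.smul_sum]
    refine Fintype.sum_equiv (MulAction.toPerm h) _ _ fun q => ?_
    obtain ⟨d, hd⟩ := QuotientGroup.mk_out_eq_mul (G.stab : Subgroup H) (h * q.out)
    rw [← mul_smul, show (MulAction.toPerm h q : Q) = ((h * q.out : H) : Q) by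
      rw [MulAction.toPerm_apply, ← smul_eq_mul h, ← MulAction.Quotient.smul_mk,
        QuotientGroup.out_eq'], hd, mul_smul (h * q.out) (d : H), hx's d d.2]
  · have hmem : ∀ q : Q, q.out • x' ∈ G.V := fun q => by
      rw [smul_mul']; exact mul_mem (he _) (hx _)
    have hxV : x ∈ G.V := by simpa using hx 1
    have heV : e ∈ G.V := by simpa using he 1
    obtain ⟨w, hw⟩ : ∃ w : G.V, ((∑ q : Q, (⟨q.out • x', hmem q⟩ : G.V)) - ⟨x, hxV⟩ : G.V) =
        G.ϖ ^ N * w := by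
      refine Ideal.mem_span_singleton.mp ?_
      rw [← Finset.add_sum_erase _ _ (Finset.mem_univ ((1 : H) : Q)), add_sub_right_comm]
      refine add_mem ?_ (sum_mem fun q hq => ?_)
      · obtain ⟨d, hd⟩ := QuotientGroup.mk_out_eq_mul (G.stab : Subgroup H) 1
        have h1 : (⟨((1 : H) : Q).out • x', hmem _⟩ : G.V) - ⟨x, hxV⟩ =
            ((⟨e, heV⟩ : G.V) - 1) * ⟨x, hxV⟩ := Subtype.ext (by
          push_cast
          rw [hd, one_mul, hx's d d.2]
          ring)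
        rw [h1]
        exact Ids.mul_mem_right _ (he1 _)
      · have hq' : q.out ∉ (G.stab : Subgroup H) := fun h => (Finset.mem_erase.mp hq).1 (by
          rw [← QuotientGroup.out_eq' q, QuotientGroup.eq, mul_one]; exact inv_mem h)
        rw [show (⟨q.out • x', hmem q⟩ : G.V) = ⟨q.out • e, he _⟩ * ⟨q.out • x, hx _⟩ from
          Subtype.ext (smul_mul' _ _ _)]
        exact Ids.mul_mem_right _ (he0 _ hq')
    refine ⟨w, ?_⟩
    have := congrArg Subtype.val hw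
    push_cast at this
    exact this

end Approx

end GaussVal

section Rigid

variable {E k : Type*} [Field E] [Field k] {η : ℕ} [Fact η.Prime] [CharP k η]
  (G : GaussVal E (LaurentSeries k))

/-- An automorphism trivial on the base and on the residues is trivial. -/
theorem eq_self_of_residue_eq (hroot : ∀ a : k, ∃ b, b ^ η = a) (Θ : E →+* E)
    (hΘV : ∀ z ∈ G.V, Θ z ∈ G.V) (hΘρ : ∀ z : G.V, G.ρ ⟨Θ z, hΘV z z.2⟩ = G.ρ z)
    (hΘϖ : Θ G.ϖ = G.ϖ) (J : G.V) (hJ : (G.ρ J).order = -1) (hΘJ : Θ J = J)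
    (hconst : ∀ c : k, ∃ a : G.V, G.ρ a = HahnSeries.C c ∧ Θ a = a)
    (halg : ∀ z : G.V, ∃ P, P ≠ 0 ∧ evalPair (G.ρ J) (G.ρ z) P = 0) (z : E) : Θ z = z := by
  let T : G.V →+* G.V := (Θ.comp G.V.subtype).codRestrict G.V fun z => hΘV z z.2
  have hT : ∀ z : G.V, (T z : E) = Θ z := fun _ => rfl
  have key : ∀ (k : ℕ) (z : G.V), G.ϖ ^ k ∣ T z - z := by
    intro i
    induction i with
    | zero => exact fun z => by simp
    | succ i ih =>
      choose w hw using ih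
      have hπ : (G.ϖ : G.V) ^ i ≠ 0 := pow_ne_zero _ fun h => G.ϖ_ne (congrArg Subtype.val h)
      have huniq : ∀ z v, T z - z = G.ϖ ^ i * v → w z = v := fun z v h =>
        mul_left_cancel₀ hπ ((hw z).symm.trans h)
      let d : G.V →+ LaurentSeries k := AddMonoidHom.mk' (fun z => G.ρ (w z)) fun a b => by
        rw [huniq (a + b) (w a + w b) (by rw [map_add, mul_add, ← hw, ← hw]; ring), map_add]
      have hfix : ∀ z, T z = z → d z = 0 := fun z h => by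
        show G.ρ (w z) = 0
        rw [huniq z 0 (by rw [h, sub_self, mul_zero]), map_zero]
      intro z
      obtain ⟨P, hP, hP0⟩ := halg z
      have hz : d z = 0 := by
        refine deriv_eq_zero hroot G.ρ d (fun a b => ?_) (fun a ha => ?_) J hJ
          (hfix J (Subtype.ext hΘJ)) (fun c => ?_) hP hP0
        · show G.ρ (w (a * b)) = G.ρ a * G.ρ (w b) + G.ρ b * G.ρ (w a)
          rw [huniq (a * b) (a * w b + T b * w a) (by
              rw [map_mul, mul_add, mul_left_comm, ← hw b, mul_left_comm (G.ϖ ^ i), ← hw a]; ring),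
            map_add, map_mul, map_mul, show G.ρ (T b) = G.ρ b from hΘρ b]
        · obtain ⟨a', rfl⟩ := G.exists_eq_mul ha
          show G.ρ (w (G.ϖ * a')) = 0
          rw [huniq (G.ϖ * a') (G.ϖ * w a') (by
              rw [map_mul, show T G.ϖ = G.ϖ from Subtype.ext hΘϖ, mul_left_comm, ← hw]; ring),
            map_mul, G.ρ_ϖ, zero_mul]
        · obtain ⟨a, ha, ha'⟩ := hconst c
          exact ⟨a, ha, hfix a (Subtype.ext ha')⟩
      obtain ⟨v, hv⟩ := G.exists_eq_mul (z := w z) hz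
      exact ⟨v, by rw [hw, hv, pow_succ, mul_assoc]⟩
  have hV : ∀ z : G.V, Θ z = z := fun z =>
    congrArg Subtype.val (sub_eq_zero.mp (G.eq_zero_of_forall_dvd (z := T z - z) fun i => key i z))
  rcases eq_or_ne z 0 with rfl | hz
  · exact map_zero Θ
  obtain ⟨m, u, -, rfl⟩ := G.dich z hz
  rw [map_mul, map_zpow₀, hV, hV]

end Rigid

end Fermat.Agent.Mazur3.Inertia
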