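/-
The Gauss valuation on bounded series with coefficients in the big field at a place, and the
boundedness of the normal series of a bounded character.
-/
import Fermat.Agent.Mazur3.Bounded
import Fermat.Agent.Mazur3.Parts
import Fermat.Agent.GalRep.Model.BaseField
import Fermat.Agent.GalRep.KummerCongr
import Fermat.Agent.EC.Local.Inertia

set_option autoImplicit false

noncomputable section

namespace Fermat.Agent.Mazur3.Inertia

open GalRep IsLocalRing
open Fermat.Agent.Galois (GQ)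
open UpperHalfPlane CongruenceSubgroup

local notation "ℚb" => AlgebraicClosure ℚ

variable (A : ValuationSubring (AlgebraicClosure ℚ))

/-- Integral series inside all series. -/
def incA : LaurentSeries A →+* LaurentSeries ℚb := lmap A.subtype

/-- Reduction of integral series. -/
def redA : LaurentSeries A →+* LaurentSeries (ResidueField A) := lmap (residue A)

theorem incA_injective : Function.Injective (incA A) := lmap_injective A.subtype_injective

theorem redA_ne_zero_ne {b : LaurentSeries A} (hb : redA A b ≠ 0) : incA A b ≠ 0 := fun h =>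
  hb (by rw [incA_injective A (h.trans (map_zero _).symm), map_zero])

/-- The valuation ring of the Gauss valuation. -/
def gaussRing : Subring (LaurentSeries ℚb) where
  carrier := {z | ∃ a b, redA A b ≠ 0 ∧ z * incA A b = incA A a}
  one_mem' := ⟨1, 1, by rw [map_one]; exact one_ne_zero, by rw [map_one, one_mul]⟩
  zero_mem' := ⟨0, 1, by rw [map_one]; exact one_ne_zero, by rw [zero_mul, map_zero]⟩
  mul_mem' := by
    rintro z z' ⟨a, b, hb, h⟩ ⟨a', b', hb', h'⟩
    exact ⟨a * a', b * b', by rw [map_mul]; exact mul_ne_zero hb hb',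
      by rw [map_mul, map_mul, ← h, ← h']; ring⟩
  add_mem' := by
    rintro z z' ⟨a, b, hb, h⟩ ⟨a', b', hb', h'⟩
    exact ⟨a * b' + a' * b, b * b', by rw [map_mul]; exact mul_ne_zero hb hb',
      by rw [map_add, map_mul, map_mul, map_mul, ← h, ← h']; ring⟩
  neg_mem' := by
    rintro z ⟨a, b, hb, h⟩
    exact ⟨-a, b, hb, by rw [map_neg, ← h, neg_mul]⟩

variable {A}

theorem incA_mem_gaussRing (a : LaurentSeries A) : incA A a ∈ gaussRing A :=
  ⟨a, 1, by rw [map_one]; exact one_ne_zero, by rw [map_one, mul_one]⟩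

variable (A) in
/-- Numerator and denominator. -/
theorem exists_frac (z : gaussRing A) :
    ∃ p : LaurentSeries A × LaurentSeries A, redA A p.2 ≠ 0 ∧ (z : LaurentSeries ℚb) * incA A p.2 = incA A p.1 := by
  obtain ⟨a, b, h⟩ := z.2
  exact ⟨(a, b), h⟩

theorem frac_wd {z : LaurentSeries ℚb} {a b a' b' : LaurentSeries A} (hb : redA A b ≠ 0)
    (hb' : redA A b' ≠ 0) (h : z * incA A b = incA A a) (h' : z * incA A b' = incA A a') :
    redA A a / redA A b = redA A a' / redA A b' := by
  rw [div_eq_div_iff hb hb', ← map_mul, ← map_mul]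
  congr 1
  refine incA_injective A ?_
  rw [map_mul, map_mul, ← h, ← h']
  ring

/-- The residue of the Gauss valuation. -/
def gaussRed (A : ValuationSubring (AlgebraicClosure ℚ)) :
    gaussRing A →+* LaurentSeries (ResidueField A) where
  toFun z := redA A (exists_frac A z).choose.1 / redA A (exists_frac A z).choose.2
  map_one' := by
    obtain ⟨hb, h⟩ := (exists_frac A 1).choose_spec
    refine (frac_wd hb (b' := 1) (a' := 1) (by rw [map_one]; exact one_ne_zero) h
      (by simp)).trans (by simp)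
  map_zero' := by
    obtain ⟨hb, h⟩ := (exists_frac A 0).choose_spec
    refine (frac_wd hb (b' := 1) (a' := 0) (by rw [map_one]; exact one_ne_zero) h
      (by simp)).trans (by simp)
  map_mul' z z' := by
    obtain ⟨hb, h⟩ := (exists_frac A z).choose_spec
    obtain ⟨hb', h'⟩ := (exists_frac A z').choose_spec
    obtain ⟨hb'', h''⟩ := (exists_frac A (z * z')).choose_spec
    rw [div_mul_div_comm, ← map_mul, ← map_mul]
    refine frac_wd hb'' (by rw [map_mul]; exact mul_ne_zero hb hb') h'' ?_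
    rw [Subring.coe_mul, map_mul, map_mul, ← h, ← h']
    ring
  map_add' z z' := by
    obtain ⟨hb, h⟩ := (exists_frac A z).choose_spec
    obtain ⟨hb', h'⟩ := (exists_frac A z').choose_spec
    obtain ⟨hb'', h''⟩ := (exists_frac A (z + z')).choose_spec
    rw [div_add_div _ _ hb hb', ← map_mul, ← map_mul, ← map_mul, ← map_add]
    refine frac_wd hb'' (by rw [map_mul]; exact mul_ne_zero hb hb') h'' ?_
    rw [Subring.coe_add, map_add, map_mul, map_mul, map_mul, ← h, ← h']
    ring

theorem gaussRed_eq (z : gaussRing A) {a b : LaurentSeries A} (hb : redA A b ≠ 0)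
    (h : (z : LaurentSeries ℚb) * incA A b = incA A a) :
    gaussRed A z = redA A a / redA A b :=
  frac_wd (exists_frac A z).choose_spec.1 hb (exists_frac A z).choose_spec.2 h

theorem gaussRed_inc (a : LaurentSeries A) :
    gaussRed A ⟨incA A a, incA_mem_gaussRing a⟩ = redA A a := by
  rw [gaussRed_eq _ (b := 1) (a := a) (by rw [map_one]; exact one_ne_zero) (by rw [map_one, mul_one]),
    map_one, div_one]

/-! ## Uniformizers and bounded series -/

/-- `ϖ` generates the values of `K` and divides a power of `η`. -/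
structure IsUnif (η : ℕ) (A : ValuationSubring (AlgebraicClosure ℚ))
    (K : IntermediateField ℚ (AlgebraicClosure ℚ)) (ϖ : AlgebraicClosure ℚ) : Prop where
  mem : ϖ ∈ K
  lt_one : A.valuation ϖ < 1
  max : ∀ x ∈ K, A.valuation x < 1 → A.valuation x ≤ A.valuation ϖ
  le : ∃ N : ℕ, A.valuation ϖ ^ N ≤ A.valuation (η : AlgebraicClosure ℚ)

theorem IsUnif.ne_zero {η : ℕ} (hη : η.Prime) {K : IntermediateField ℚ ℚb} {ϖ : ℚb}
    (h : IsUnif η A K ϖ) (hA : A.LiesOverPrime η) : ϖ ≠ 0 := fun h0 => by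
  have h1 := h.max (η : ℚb) (natCast_mem K η) (valuation_ell_lt_one hA)
  rw [h0, map_zero] at h1
  exact absurd h1 (not_le.mpr (valuation_ell_pos hη))

variable (A)

/-- Series over `K` with bounded coefficients. -/
def bddSer (K : IntermediateField ℚ (AlgebraicClosure ℚ)) :
    Subring (LaurentSeries (AlgebraicClosure ℚ)) where
  carrier := {f | f ∈ LSer K ∧ ∃ c : ℚb, c ≠ 0 ∧ c ∈ A ∧ HahnSeries.C c * f ∈ intSeriesA A}
  one_mem' := ⟨one_mem _, 1, one_ne_zero, one_mem A, by rw [map_one, one_mul]; exact one_mem _⟩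
  zero_mem' := ⟨zero_mem _, 1, one_ne_zero, one_mem A, by rw [mul_zero]; exact zero_mem _⟩
  mul_mem' := by
    rintro f g ⟨hf, c, hc, hcA, h⟩ ⟨hg, c', hc', hcA', h'⟩
    refine ⟨mul_mem hf hg, c * c', mul_ne_zero hc hc', mul_mem hcA hcA', ?_⟩
    rw [map_mul, mul_mul_mul_comm]
    exact mul_mem h h'
  add_mem' := by
    rintro f g ⟨hf, c, hc, hcA, h⟩ ⟨hg, c', hc', hcA', h'⟩
    refine ⟨add_mem hf hg, c * c', mul_ne_zero hc hc', mul_mem hcA hcA', ?_⟩
    rw [map_mul, show HahnSeries.C c * HahnSeries.C c' * (f + g) =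
      HahnSeries.C c' * (HahnSeries.C c * f) + HahnSeries.C c * (HahnSeries.C c' * g) by ring]
    exact add_mem (mul_mem (C_mem_intSeriesA hcA') h) (mul_mem (C_mem_intSeriesA hcA) h')
  neg_mem' := by
    rintro f ⟨hf, c, hc, hcA, h⟩
    exact ⟨neg_mem hf, c, hc, hcA, by rw [mul_neg]; exact neg_mem h⟩

variable {A}

theorem mem_bddSer_of_bound {K : IntermediateField ℚ ℚb} {f : LaurentSeries ℚb} (hf : f ∈ LSer K)
    {c : ℚb} (hc : c ≠ 0) (h : HahnSeries.C c * f ∈ intSeriesA A) : f ∈ bddSer A K := by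
  rcases A.mem_or_inv_mem c with hcA | hcA
  · exact ⟨hf, c, hc, hcA, h⟩
  · refine ⟨hf, 1, one_ne_zero, one_mem A, ?_⟩
    rw [show HahnSeries.C (1 : ℚb) * f = HahnSeries.C c⁻¹ * (HahnSeries.C c * f) by
      rw [← mul_assoc, ← map_mul, inv_mul_cancel₀ hc]]
    exact mul_mem (C_mem_intSeriesA hcA) h

/-- A bounded series over `K` is a power of the uniformizer times a primitive series. -/
theorem exists_factor {η : ℕ} (hη : η.Prime) (hA : A.LiesOverPrime η)
    {K : IntermediateField ℚ ℚb} {ϖ : ℚb} (hϖ : IsUnif η A K ϖ) {f : LaurentSeries ℚb}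
    (hf : f ∈ bddSer A K) (hf0 : f ≠ 0) :
    ∃ (m : ℤ) (u : LaurentSeries A), redA A u ≠ 0 ∧ incA A u ∈ LSer K ∧
      f = HahnSeries.C (ϖ ^ m) * incA A u := by
  obtain ⟨hfK, c, hc0, hcA, hcf⟩ := hf
  have hϖ0 := hϖ.ne_zero hη hA
  have hcoe : ∀ (x : ℚb) (g : LaurentSeries ℚb) (k : ℤ),
      (HahnSeries.C x * g).coeff k = x * g.coeff k := coeff_C_mul_series
  obtain ⟨N, hN⟩ := hϖ.le
  obtain ⟨z, hz0, hz⟩ := Model.exists_multiple_integral_aux c
  obtain ⟨i, hi⟩ := Model.exists_pow_le_val A hη hA hz (mul_ne_zero (Int.cast_ne_zero.mpr hz0) hc0)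
  have hvc : A.valuation ϖ ^ (N * i) ≤ A.valuation c := by
    refine le_trans ?_ (hi.trans ?_)
    · rw [pow_mul]; exact pow_le_pow_left₀ zero_le hN i
    · rw [map_mul]
      exact mul_le_of_le_one_left' ((A.valuation_le_one_iff _).mpr (intCast_mem A z))
  set g : LaurentSeries ℚb := HahnSeries.C (ϖ ^ (N * i)) * f with hg
  have hgA : ∀ k, g.coeff k ∈ A := fun k => by
    refine (A.valuation_le_one_iff _).mp ?_
    rw [hg, hcoe, map_mul, map_pow]
    refine (mul_le_mul_left hvc _).trans ?_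
    rw [← map_mul, A.valuation_le_one_iff, ← hcoe]
    exact mem_intSeriesA.mp hcf k
  have hgK : g ∈ LSer K := mul_mem (C_mem_LSer (pow_mem hϖ.mem _)) hfK
  obtain ⟨k₀, hk₀⟩ : ∃ k, g.coeff k ≠ 0 := by
    refine ⟨g.order, HahnSeries.coeff_order_eq_zero.not.mpr (mul_ne_zero ?_ hf0)⟩
    exact (map_ne_zero_iff _ HahnSeries.C_injective).mpr (pow_ne_zero _ hϖ0)
  obtain ⟨z', hz0', hz'⟩ := Model.exists_multiple_integral_aux (g.coeff k₀)
  obtain ⟨j, hj⟩ := Model.exists_pow_le_val A hη hA hz'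
    (mul_ne_zero (Int.cast_ne_zero.mpr hz0') hk₀)
  have hvg : A.valuation ϖ ^ (N * j) ≤ A.valuation (g.coeff k₀) := by
    refine le_trans ?_ (hj.trans ?_)
    · rw [pow_mul]; exact pow_le_pow_left₀ zero_le hN j
    · rw [map_mul]
      exact mul_le_of_le_one_left' ((A.valuation_le_one_iff _).mpr (intCast_mem A z'))
  suffices key : ∀ (n : ℕ) (g : LaurentSeries ℚb), g ∈ LSer K → (∀ k, g.coeff k ∈ A) →
      (∃ k, A.valuation ϖ ^ n ≤ A.valuation (g.coeff k)) →
      ∃ (m : ℤ) (u : LaurentSeries A), redA A u ≠ 0 ∧ incA A u ∈ LSer K ∧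
        g = HahnSeries.C (ϖ ^ m) * incA A u by
    obtain ⟨m, u, hu, huK, he⟩ := key _ g hgK hgA ⟨k₀, hvg⟩
    refine ⟨m - (N * i : ℕ), u, hu, huK, ?_⟩
    rw [zpow_sub₀ hϖ0, zpow_natCast, div_eq_mul_inv, mul_comm (ϖ ^ m), map_mul, mul_assoc, ← he,
      hg, ← mul_assoc, ← map_mul, inv_mul_cancel₀ (pow_ne_zero _ hϖ0), map_one, one_mul]
  intro n
  induction n with
  | zero =>
    intro g hgK hgA ⟨k, hk⟩
    obtain ⟨u, hu⟩ := mem_intSeriesA.mpr hgA
    refine ⟨0, u, fun h0 => ?_, by rwa [show incA A u = g from hu], by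
      rw [zpow_zero, map_one, one_mul, show incA A u = g from hu]⟩
    have h1 := congrArg (fun s : LaurentSeries (ResidueField A) => s.coeff k) h0
    have h2 : u.coeff k ∈ maximalIdeal A := (residue_eq_zero_iff _).mp h1
    rw [← hu] at hk
    rw [pow_zero] at hk
    exact absurd ((A.valuation_lt_one_iff _).mp h2) (not_lt.mpr hk)
  | succ n ih =>
    intro g hgK hgA ⟨k, hk⟩
    by_cases hu : ∃ l, A.valuation (g.coeff l) = 1
    · obtain ⟨l, hl⟩ := hu
      obtain ⟨u, hu⟩ := mem_intSeriesA.mpr hgA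
      refine ⟨0, u, fun h0 => ?_, by rwa [show incA A u = g from hu], by
        rw [zpow_zero, map_one, one_mul, show incA A u = g from hu]⟩
      have h1 := congrArg (fun s : LaurentSeries (ResidueField A) => s.coeff l) h0
      have h2 : u.coeff l ∈ maximalIdeal A := (residue_eq_zero_iff _).mp h1
      rw [← hu] at hl
      exact absurd ((A.valuation_lt_one_iff _).mp h2) (not_lt.mpr hl.ge)
    push Not at hu
    set g' : LaurentSeries ℚb := HahnSeries.C ϖ⁻¹ * g with hg'
    have hg'K : g' ∈ LSer K := mul_mem (C_mem_LSer (inv_mem hϖ.mem)) hgK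
    have hvϖ : (0 : A.ValueGroup) < A.valuation ϖ := zero_lt_iff.mpr ((map_ne_zero _).mpr hϖ0)
    have hg'A : ∀ l, g'.coeff l ∈ A := fun l => by
      refine (A.valuation_le_one_iff _).mp ?_
      rw [hg', hcoe, map_mul, map_inv₀, inv_mul_le_iff₀ hvϖ, mul_one]
      exact hϖ.max _ (mem_LSer.mp hgK l)
        (lt_of_le_of_ne ((A.valuation_le_one_iff _).mpr (hgA l)) (hu l))
    obtain ⟨m, u, hu', huK, he⟩ := ih g' hg'K hg'A ⟨k, by
      rw [hg', hcoe, map_mul, map_inv₀, le_inv_mul_iff₀ hvϖ, ← pow_succ']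
      exact hk⟩
    refine ⟨m + 1, u, hu', huK, ?_⟩
    rw [zpow_add_one₀ hϖ0, mul_comm (ϖ ^ m), map_mul, mul_assoc, ← he, hg', ← mul_assoc,
      ← map_mul, mul_inv_cancel₀ hϖ0, map_one, one_mul]

/-! ## The action of inertia on series -/

/-- An inertia element on the valuation ring. -/
def inertiaHom {σ : GQ} (h : EC.ActsInertially A σ) : A →+* A :=
  (σ.toRingEquiv.toRingHom.comp A.subtype).codRestrict A.toSubring fun x =>
    (A.valuation_le_one_iff _).mp (by
      show A.valuation (σ x) ≤ 1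
      rw [h.valuation_eq]; exact (A.valuation_le_one_iff _).mpr x.2)

theorem residue_inertiaHom {σ : GQ} (h : EC.ActsInertially A σ) (x : A) :
    residue A (inertiaHom h x) = residue A x := by
  rw [← sub_eq_zero, ← map_sub, residue_eq_zero_iff]
  exact (A.valuation_lt_one_iff _).mpr (h.sub_lt x ((A.valuation_le_one_iff _).mpr x.2))

theorem seriesConj_incA {σ : GQ} (h : EC.ActsInertially A σ) (a : LaurentSeries A) :
    seriesConj σ (incA A a) = incA A (lmap (inertiaHom h) a) := by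
  ext m; rfl

theorem redA_lmap_inertia {σ : GQ} (h : EC.ActsInertially A σ) (a : LaurentSeries A) :
    redA A (lmap (inertiaHom h) a) = redA A a := by
  ext m; exact residue_inertiaHom h _

theorem seriesConj_mul' (σ : GQ) (f g : LaurentSeries ℚb) :
    seriesConj σ (f * g) = seriesConj σ f * seriesConj σ g :=
  map_mul (lmap σ.toRingEquiv.toRingHom) f g

theorem seriesConj_frac {σ : GQ} (h : EC.ActsInertially A σ) {f : LaurentSeries ℚb}
    {a b : LaurentSeries A} (he : f * incA A b = incA A a) :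
    seriesConj σ f * incA A (lmap (inertiaHom h) b) = incA A (lmap (inertiaHom h) a) :=
  ((seriesConj_mul' σ f (incA A b)).trans
    (congrArg (seriesConj σ f * ·) (seriesConj_incA h b))).symm.trans
    ((congrArg (seriesConj σ) he).trans (seriesConj_incA h a))

theorem seriesConj_mem_gaussRing {σ : GQ} (h : EC.ActsInertially A σ) (z : gaussRing A) :
    ∃ hm : seriesConj σ z ∈ gaussRing A, gaussRed A ⟨_, hm⟩ = gaussRed A z := by
  obtain ⟨⟨a, b⟩, hb, he⟩ := exists_frac A z
  have hb' : redA A (lmap (inertiaHom h) b) ≠ 0 := fun h0 =>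
    hb ((redA_lmap_inertia h b).symm.trans h0)
  have he' := seriesConj_frac h he
  refine ⟨⟨_, _, hb', he'⟩, ?_⟩
  refine (gaussRed_eq ⟨seriesConj σ z, ⟨_, _, hb', he'⟩⟩ hb' he').trans ?_
  refine Eq.trans ?_ (gaussRed_eq z hb he).symm
  exact congrArg₂ (· / ·) (redA_lmap_inertia h a) (redA_lmap_inertia h b)

theorem seriesConj_mem_intSeriesA {σ : GQ} (h : EC.ActsInertially A σ) {f : LaurentSeries ℚb}
    (hf : f ∈ intSeriesA A) : seriesConj σ f ∈ intSeriesA A := by
  obtain ⟨a, rfl⟩ := hf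
  exact ⟨_, (seriesConj_incA h a).symm⟩

/-! ## Fields -/

/-- The big field as an extension of `ℚ`. -/
def bigK (η : ℕ) (L : IntermediateField ℚ (AlgebraicClosure ℚ)) :
    IntermediateField ℚ (AlgebraicClosure ℚ) :=
  (Model.bigField η L).restrictScalars ℚ

theorem mem_bigK {η : ℕ} {L : IntermediateField ℚ ℚb} {x : ℚb} :
    x ∈ bigK η L ↔ x ∈ Model.bigField η L := IntermediateField.mem_restrictScalars ℚ

theorem le_bigK {η : ℕ} {L : IntermediateField ℚ ℚb} {x : ℚb} (hx : x ∈ L) : x ∈ bigK η L :=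
  mem_bigK.mpr (IntermediateField.subset_adjoin _ _ hx)

theorem primeToRoots_mem_bigK {η : ℕ} {L : IntermediateField ℚ ℚb} {x : ℚb}
    (hx : x ∈ Model.primeToRoots η) : x ∈ bigK η L :=
  mem_bigK.mpr (IntermediateField.algebraMap_mem (Model.bigField η L)
    (⟨x, IntermediateField.subset_adjoin _ _ hx⟩ : Model.cycField η))

theorem exists_isUnif {η : ℕ} (hη : η.Prime) (hA : A.LiesOverPrime η)
    (L : IntermediateField ℚ ℚb) [FiniteDimensional ℚ L] :
    ∃ ϖ, IsUnif η A (bigK η L) ϖ := by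
  obtain ⟨ϖ, h1, h2, h3, h4⟩ := Model.exists_uniformizer A hη hA L
  exact ⟨ϖ, h1, h2, h3, h4⟩

theorem map_mem_bigK {η : ℕ} {L : IntermediateField ℚ ℚb} [Normal ℚ L] (σ : GQ) {x : ℚb}
    (hx : x ∈ bigK η L) : σ x ∈ bigK η L := by
  have hc : Model.cycField η ≤ (bigK η L).comap σ.toAlgHom :=
    IntermediateField.adjoin_le_iff.mpr fun y ⟨n, hn, hy⟩ =>
      primeToRoots_mem_bigK (η := η) (L := L) ⟨n, hn, by
        show σ y ^ n = 1
        rw [← map_pow, hy, map_one]⟩
  show σ x ∈ bigK η L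
  change x ∈ IntermediateField.adjoin (Model.cycField η) (L : Set ℚb) at hx
  induction hx using IntermediateField.adjoin_induction with
  | mem y hy =>
    refine le_bigK ?_
    have h1 := AlgEquiv.restrictNormal_commutes σ L ⟨y, hy⟩
    rw [show σ y = ((σ.restrictNormal L) ⟨y, hy⟩ : L) from h1.symm]
    exact SetLike.coe_mem _
  | algebraMap y => exact hc y.2
  | add a b _ _ iha ihb => rw [map_add]; exact add_mem iha ihb
  | inv a _ iha => rw [map_inv₀]; exact inv_mem iha
  | mul a b _ _ iha ihb => rw [map_mul]; exact mul_mem iha ihb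

theorem exists_residue_lift {η : ℕ} (hη : η.Prime) (hA : A.LiesOverPrime η)
    (L : IntermediateField ℚ ℚb) (r : ResidueField A) :
    ∃ x : A, (x : ℚb) ∈ bigK η L ∧ residue A x = r := by
  rcases eq_or_ne r 0 with rfl | hr
  · exact ⟨0, zero_mem _, map_zero _⟩
  · obtain ⟨x, hx, rfl⟩ := Model.exists_root_residue A hη hA r hr
    exact ⟨x, primeToRoots_mem_bigK hx, rfl⟩

/-- A normal number field containing a given element and all normal series. -/
theorem exists_normal_field (N n : ℕ) [NeZero N] [NeZero n] (ζ : ℚb) :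
    ∃ L : IntermediateField ℚ ℚb, FiniteDimensional ℚ L ∧ Normal ℚ L ∧ ζ ∈ L ∧
      ∀ (χ : ParHom N (ZMod n)) (F : ℍ → ℂ) (f : LaurentSeries ℚb),
        IsNormal χ F (seriesToC f) → f ∈ LSer L := by
  obtain ⟨L₀, hfin, h⟩ := exists_finite_level (N := N) (n := n)
  have : FiniteDimensional ℚ (IntermediateField.adjoin ℚ ({ζ} : Set ℚb)) :=
    IntermediateField.adjoin.finiteDimensional (Algebra.IsIntegral.isIntegral ζ)
  set L₁ := L₀ ⊔ IntermediateField.adjoin ℚ ({ζ} : Set ℚb)
  have : Normal ℚ ℚb := IsGalois.to_normal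
  refine ⟨IntermediateField.normalClosure ℚ L₁ ℚb, inferInstance, normalClosure.normal ℚ L₁ ℚb,
    IntermediateField.le_normalClosure L₁ (le_sup_right (a := L₀)
      (IntermediateField.subset_adjoin ℚ _ rfl)), fun χ F f hF => mem_LSer.mpr fun k => ?_⟩
  refine IntermediateField.le_normalClosure L₁ (le_sup_left (b := IntermediateField.adjoin ℚ {ζ}) ?_)
  have hn : seriesToC f = normalSeries χ :=
    hF.series_unique (exists_isNormal_normalSeries χ).choose_spec
  rw [← InfiniteGalois.fixedField_fixingSubgroup L₀]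
  intro s
  have h1 := lmap_normalSeries (liftAut (s : GQ)) χ
  rw [h s (fun x hx => s.2 ⟨x, hx⟩) χ, ← hn, lmap_seriesToC (liftAut_spec (s : GQ))] at h1
  exact congrArg (fun g : LaurentSeries ℚb => g.coeff k) (seriesToC_injective h1)

/-! ## Bounded characters -/

theorem C_mul_mem_fracSeries {c : ℚb} (hc : c ≠ 0) {f : LaurentSeries ℚb}
    (h : HahnSeries.C c * f ∈ intSeriesA A) : f ∈ fracSeries A := by
  have hC : ∀ x : ℚb, (HahnSeries.C x : LaurentSeries ℚb) ∈ fracSeries A := fun x => by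
    rcases A.mem_or_inv_mem x with hx | hx
    · exact Subfield.subset_closure (C_mem_intSeriesA hx)
    · rw [← inv_inv x, map_inv₀]
      exact inv_mem (Subfield.subset_closure (C_mem_intSeriesA hx))
  rw [show f = HahnSeries.C c⁻¹ * (HahnSeries.C c * f) by
    rw [← mul_assoc, ← map_mul, inv_mul_cancel₀ hc, map_one, one_mul]]
  exact mul_mem (hC _) (Subfield.subset_closure h)

/-- The normal series of a bounded character has bounded coefficients. -/
theorem exists_bound_of_isBoundedChar {N η n : ℕ} [NeZero N] [NeZero n] (hη : η.Prime)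
    (hA : A.LiesOverPrime η) {χ : ParHom N (ZMod n)} (hχ : IsBoundedChar N n A χ)
    {R : ℍ → ℂ} {r : LaurentSeries ℚb} (hR : IsNormal χ R (seriesToC r)) :
    ∃ c : ℚb, c ≠ 0 ∧ HahnSeries.C c * r ∈ intSeriesA A := by
  obtain ⟨F, f, hF, hf, hfF⟩ := hχ
  have hf0 : f ≠ 0 := Base.rep_series_ne_zero hF hf
  have hr0 : r ≠ 0 := Base.rep_series_ne_zero hR.rep hR.series
  have hmod : IsModFun (Gamma0 N) (R * F ^ (n - 1)) := by
    have := hR.rep.mul (hF.pow (n - 1))
    rw [add_pred_nsmul_eq_zero] at this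
    exact this.isModFun
  obtain ⟨c₁, hc₁, hint₁, -⟩ := exists_modFun_normalisation hη hA hmod
    (hasQSeries_mul_seriesToC hR.series (hasQSeries_pow_seriesToC hf _))
    (mul_ne_zero hr0 (pow_ne_zero _ hf0))
  obtain ⟨c₂, hc₂, hint₂, -⟩ := exists_modFun_normalisation hη hA
    (isModFun_pow_rep hR.rep hR.series).1 (isModFun_pow_rep hR.rep hR.series).2 (pow_ne_zero _ hr0)
  obtain ⟨d, hd⟩ := IsAlgClosed.exists_pow_nat_eq c₂ (NeZero.pos n)
  have hd0 : d ≠ 0 := fun h0 => hc₂ (by rw [← hd, h0, zero_pow (NeZero.ne n)])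
  set z := HahnSeries.C d * r with hz
  have hzn : z ^ n ∈ intSeriesA A := by rwa [hz, mul_pow, ← map_pow, hd]
  have hzF : z ∈ fracSeries A := by
    refine mul_mem (C_mul_mem_fracSeries (inv_ne_zero hd0) ?_) ?_
    · rw [← map_mul, inv_mul_cancel₀ hd0, map_one]; exact one_mem _
    · rw [show r = r * f ^ (n - 1) / f ^ (n - 1) by rw [mul_div_cancel_right₀ _ (pow_ne_zero _ hf0)]]
      exact div_mem (C_mul_mem_fracSeries hc₁ hint₁) (pow_mem hfF _)
  rw [fracSeries, Subfield.mem_closure_iff, Subring.closure_eq] at hzF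
  obtain ⟨a, ha, b, hb, hab⟩ := hzF
  refine ⟨d, hd0, ?_⟩
  rw [← hz]
  rcases eq_or_ne b 0 with rfl | hb0
  · rw [← hab, div_zero]; exact zero_mem _
  refine mem_intSeriesA_of_pow hη hA (pow_ne_zero (n - 1) hb0) fun k => ?_
  have hs : k % n ≤ n - 1 := Nat.le_sub_one_of_lt (Nat.mod_lt k (NeZero.pos n))
  rw [← Nat.mod_add_div k n, pow_add, pow_mul, ← mul_assoc]
  refine mul_mem ?_ (pow_mem hzn _)
  rw [← Nat.sub_add_cancel hs, pow_add, mul_assoc, ← mul_pow, ← hab, mul_div_cancel₀ _ hb0]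
  exact mul_mem (pow_mem hb _) (pow_mem ha _)

end Fermat.Agent.Mazur3.Inertia
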