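/-
The ring generated by the bounded Kummer functions with coefficients in a field, with its
automorphisms and the Gauss valuation on its fraction field.
-/
import Fermat.Agent.Mazur3.Inertia.Series
import Fermat.Agent.Mazur3.Inertia.Separate

set_option autoImplicit false

noncomputable section

namespace Fermat.Agent.Mazur3.Inertia

open GalRep IsLocalRing
open Fermat.Agent.Galois (GQ)
open UpperHalfPlane CongruenceSubgroup
open scoped MatrixGroups Manifold

local notation "ℚb" => AlgebraicClosure ℚ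

/-- The ring generated by bounded Kummer series over `Kc`. -/
def coverRing (N n : ℕ) [NeZero N] [NeZero n] (A : ValuationSubring (AlgebraicClosure ℚ))
    (Kc : IntermediateField ℚ (AlgebraicClosure ℚ)) :
    Subring (LaurentSeries (AlgebraicClosure ℚ)) :=
  Subring.closure {r | r ∈ bddSer A Kc ∧
    ∃ (ψ : ParHom N (ZMod n)) (F : ℍ → ℂ), IsKummerRep N n ψ F ∧ HasQSeries 1 F (seriesToC r)}

variable {N n : ℕ} [NeZero N] [NeZero n] {A : ValuationSubring (AlgebraicClosure ℚ)}
  {Kc : IntermediateField ℚ (AlgebraicClosure ℚ)}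

theorem coverRing_le : coverRing N n A Kc ≤ bddSer A Kc :=
  Subring.closure_le.mpr fun _ h => h.1

theorem rep_mem_coverRing {r : LaurentSeries ℚb} (hr : r ∈ bddSer A Kc) {ψ : ParHom N (ZMod n)}
    {F : ℍ → ℂ} (hF : IsKummerRep N n ψ F) (hf : HasQSeries 1 F (seriesToC r)) :
    r ∈ coverRing N n A Kc :=
  Subring.subset_closure ⟨hr, ψ, F, hF, hf⟩

omit [NeZero N] in
theorem isKummerRep_zero_of_modFun {F : ℍ → ℂ} (hF : IsModFun (Gamma0 N) F) (h0 : F ≠ 0) :
    IsKummerRep N n (0 : ParHom N (ZMod n)) F :=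
  ⟨hF.holo, h0, fun γ τ => by simpa using hF.invariant _ γ.2 τ, hF.cusps⟩

theorem C_mem_bddSer {x : ℚb} (hx : x ∈ Kc) : HahnSeries.C x ∈ bddSer A Kc := by
  refine mem_bddSer_of_bound (C_mem_LSer hx) (c := if x = 0 then 1 else x⁻¹) ?_ ?_
  · split_ifs with h
    · exact one_ne_zero
    · exact inv_ne_zero h
  · rw [← map_mul]
    refine C_mem_intSeriesA ?_
    split_ifs with h
    · rw [h, mul_zero]; exact zero_mem A
    · rw [inv_mul_cancel₀ h]; exact one_mem A

theorem C_mem_coverRing {x : ℚb} (hx : x ∈ Kc) : HahnSeries.C x ∈ coverRing N n A Kc := by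
  rcases eq_or_ne x 0 with rfl | h0
  · rw [map_zero]; exact zero_mem _
  refine rep_mem_coverRing (C_mem_bddSer hx)
    (isKummerRep_zero_of_modFun (F := fun _ => qbarToC x) ⟨mdifferentiable_const, fun _ _ _ => rfl,
      hasSeriesAtCusps_const _⟩ fun h => h0 (qbarToC_injective ((congrFun h I).trans (map_zero _).symm)))
    ?_
  rw [seriesToC_eq_lmap, lmap_C]
  exact HasQSeries.const 1 _

theorem hasQSeries_jqModC : HasQSeries 1 Period.jFun (seriesToC (ModularCurve.jqModC ℚb)) := by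
  rw [seriesToC_eq_lmap, lmap_jqModC, ← jq_eq_jqModC]
  exact hasQSeries_jq

theorem jqModC_mem_bddSer : ModularCurve.jqModC ℚb ∈ bddSer A Kc := by
  refine mem_bddSer_of_bound ⟨ModularCurve.jqModC Kc, lmap_jqModC _⟩ one_ne_zero ?_
  rw [map_one, one_mul]
  exact jqModC_mem_intSeriesA A

theorem jqModC_mem_coverRing : ModularCurve.jqModC ℚb ∈ coverRing N n A Kc := by
  have hj : IsModFun (Gamma0 N) Period.jFun := modFuns_anti le_top isModFun_jFun
  refine rep_mem_coverRing jqModC_mem_bddSer (isKummerRep_zero_of_modFun hj fun h0 => ?_)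
    hasQSeries_jqModC
  have h1 := congrArg (fun f : LaurentSeries ℂ => f.coeff (-1))
    ((h0 ▸ hasQSeries_jq).unique one_pos (HasQSeries.zero 1))
  rw [jq_eq_jqModC] at h1
  simp [ModularCurve.coeff_jqModC_neg_one] at h1

/-! ## Translation -/

/-- `s'` is the series of the function of `s` translated by `γ`. -/
def IsTransp (γ : SL(2, ℤ)) (s s' : LaurentSeries (AlgebraicClosure ℚ)) : Prop :=
  ∃ F : ℍ → ℂ, MDifferentiable 𝓘(ℂ) 𝓘(ℂ) F ∧ HasSeriesAtCusps F ∧ HasQSeries 1 F (seriesToC s) ∧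
    HasQSeries 1 (fun τ => F (γ • τ)) (seriesToC s')

theorem IsTransp.unique {γ : SL(2, ℤ)} {s s₁ s₂ : LaurentSeries ℚb} (h₁ : IsTransp γ s s₁)
    (h₂ : IsTransp γ s s₂) : s₁ = s₂ := by
  obtain ⟨F, hF, -, hs, h1⟩ := h₁
  obtain ⟨F', hF', -, hs', h2⟩ := h₂
  obtain rfl := eq_of_hasQSeries hF hF' hs hs'
  exact seriesToC_injective (h1.unique one_pos h2)

theorem IsTransp.add {γ : SL(2, ℤ)} {s s' t t' : LaurentSeries ℚb} (h : IsTransp γ s s')
    (h' : IsTransp γ t t') : IsTransp γ (s + t) (s' + t') := by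
  obtain ⟨F, hF, hc, h1, h2⟩ := h
  obtain ⟨G, hG, hc', h1', h2'⟩ := h'
  exact ⟨F + G, hF.add hG, hc.add hc', by rw [seriesToC_eq_lmap, map_add]; exact h1.add h1',
    by rw [seriesToC_eq_lmap, map_add]; exact h2.add h2'⟩

theorem IsTransp.mul {γ : SL(2, ℤ)} {s s' t t' : LaurentSeries ℚb} (h : IsTransp γ s s')
    (h' : IsTransp γ t t') : IsTransp γ (s * t) (s' * t') := by
  obtain ⟨F, hF, hc, h1, h2⟩ := h
  obtain ⟨G, hG, hc', h1', h2'⟩ := h'
  exact ⟨F * G, hF.mul hG, hc.mul hc', hasQSeries_mul_seriesToC h1 h1',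
    by rw [seriesToC_eq_lmap, map_mul]; exact h2.mul h2'⟩

theorem IsTransp.const (γ : SL(2, ℤ)) (x : ℚb) :
    IsTransp γ (HahnSeries.C x) (HahnSeries.C x) :=
  ⟨fun _ => qbarToC x, mdifferentiable_const, hasSeriesAtCusps_const _,
    by rw [seriesToC_eq_lmap, lmap_C]; exact HasQSeries.const 1 _,
    by rw [seriesToC_eq_lmap, lmap_C]; exact HasQSeries.const 1 _⟩

theorem IsTransp.comp {γ δ : SL(2, ℤ)} {s s' s'' : LaurentSeries ℚb} (h : IsTransp γ s s')
    (h' : IsTransp δ s' s'') : IsTransp (γ * δ) s s'' := by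
  obtain ⟨F, hF, hc, h1, h2⟩ := h
  obtain ⟨G, hG, -, h1', h2'⟩ := h'
  obtain rfl := eq_of_hasQSeries (mdifferentiable_comp_smul hF γ) hG h2 h1'
  exact ⟨F, hF, hc, h1, h2'.congr (.of_forall fun τ => congrArg F (mul_smul γ δ τ).symm)⟩

/-- The field contains the root of unity giving the standard character. -/
structure HasZeta (n : ℕ) [NeZero n] (Kc : IntermediateField ℚ (AlgebraicClosure ℚ))
    (ζ : AlgebraicClosure ℚ) : Prop where
  mem : ζ ∈ Kc
  pow_eq : ∀ a : ZMod n, qbarToC ζ ^ a.val = ZMod.stdAddChar a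

variable {ζ : AlgebraicClosure ℚ}

omit [NeZero N] in
theorem isTransp_rep (hζ : HasZeta n Kc ζ) (γ : Gamma0 N) {r : LaurentSeries ℚb}
    {ψ : ParHom N (ZMod n)} {F : ℍ → ℂ} (hF : IsKummerRep N n ψ F)
    (hf : HasQSeries 1 F (seriesToC r)) :
    IsTransp (γ : SL(2, ℤ)) r
      (HahnSeries.C (ζ ^ ((ψ : Additive (Gamma0 N) →+ ZMod n) (Additive.ofMul γ)).val) * r) := by
  refine ⟨F, hF.holo, hF.cusps, hf, ?_⟩
  rw [seriesToC_eq_lmap, map_mul, lmap_C, map_pow, hζ.pow_eq]
  exact (hf.smul _).congr (.of_forall fun τ => (hF.equivariant γ τ).symm)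

theorem exists_transp (hζ : HasZeta n Kc ζ) (γ : Gamma0 N) (s : coverRing N n A Kc) :
    ∃ s' : coverRing N n A Kc, IsTransp (γ : SL(2, ℤ)) (s : LaurentSeries ℚb) s' := by
  obtain ⟨s, hs⟩ := s
  induction hs using Subring.closure_induction with
  | mem r hr =>
    obtain ⟨hb, ψ, F, hF, hf⟩ := hr
    exact ⟨⟨_, mul_mem (C_mem_coverRing (pow_mem hζ.mem _)) (rep_mem_coverRing hb hF hf)⟩,
      isTransp_rep hζ γ hF hf⟩
  | zero => exact ⟨0, by have := IsTransp.const (γ : SL(2, ℤ)) 0; rwa [map_zero] at this⟩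
  | one => exact ⟨1, by have := IsTransp.const (γ : SL(2, ℤ)) 1; rwa [map_one] at this⟩
  | add x y _ _ hx hy =>
    obtain ⟨x', hx⟩ := hx
    obtain ⟨y', hy⟩ := hy
    exact ⟨x' + y', hx.add hy⟩
  | neg x _ hx =>
    obtain ⟨x', hx⟩ := hx
    refine ⟨-x', ?_⟩
    have := (IsTransp.const (γ : SL(2, ℤ)) (-1)).mul hx
    rwa [map_neg, map_one, neg_one_mul, neg_one_mul] at this
  | mul x y _ _ hx hy =>
    obtain ⟨x', hx⟩ := hx
    obtain ⟨y', hy⟩ := hy
    exact ⟨x' * y', hx.mul hy⟩

/-- Translation of a series. -/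
def transpFun (hζ : HasZeta n Kc ζ) (γ : Gamma0 N) (s : coverRing N n A Kc) :
    coverRing N n A Kc :=
  (exists_transp hζ γ s).choose

theorem transpFun_eq (hζ : HasZeta n Kc ζ) {γ : Gamma0 N} {s s' : coverRing N n A Kc}
    (h : IsTransp (γ : SL(2, ℤ)) (s : LaurentSeries ℚb) s') : transpFun hζ γ s = s' :=
  Subtype.ext ((exists_transp hζ γ s).choose_spec.unique h)

theorem transpFun_comp (hζ : HasZeta n Kc ζ) (γ δ : Gamma0 N) (s : coverRing N n A Kc) :
    transpFun hζ (γ * δ) s = transpFun hζ δ (transpFun hζ γ s) :=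
  transpFun_eq hζ
    ((exists_transp hζ γ s).choose_spec.comp (exists_transp hζ δ (transpFun hζ γ s)).choose_spec)

theorem transpFun_one (hζ : HasZeta n Kc ζ) (s : coverRing N n A Kc) :
    transpFun hζ (1 : Gamma0 N) s = s := by
  obtain ⟨F, hF, hc, h1, -⟩ := (exists_transp hζ 1 s).choose_spec
  exact transpFun_eq hζ ⟨F, hF, hc, h1, by simpa using h1⟩

/-- Translation as an automorphism. -/
def transp (hζ : HasZeta n Kc ζ) (γ : Gamma0 N) : RingAut (coverRing N n A Kc) where
  toFun := transpFun hζ γ⁻¹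
  invFun := transpFun hζ γ
  left_inv s := by rw [← transpFun_comp, inv_mul_cancel, transpFun_one]
  right_inv s := by rw [← transpFun_comp, mul_inv_cancel, transpFun_one]
  map_mul' s t := transpFun_eq hζ
    ((exists_transp hζ γ⁻¹ s).choose_spec.mul (exists_transp hζ γ⁻¹ t).choose_spec)
  map_add' s t := transpFun_eq hζ
    ((exists_transp hζ γ⁻¹ s).choose_spec.add (exists_transp hζ γ⁻¹ t).choose_spec)

/-- Translations as a homomorphism. -/
def transpHom (hζ : HasZeta n Kc ζ) : Gamma0 N →* RingAut (coverRing N n A Kc) where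
  toFun := transp hζ
  map_one' := RingEquiv.ext fun s => by
    show transpFun hζ (1 : Gamma0 N)⁻¹ s = s
    rw [inv_one, transpFun_one]
  map_mul' γ δ := RingEquiv.ext fun s => by
    show transpFun hζ (γ * δ)⁻¹ s = transpFun hζ γ⁻¹ (transpFun hζ δ⁻¹ s)
    rw [mul_inv_rev, transpFun_comp]

theorem transpHom_rep (hζ : HasZeta n Kc ζ) (γ : Gamma0 N) (r : coverRing N n A Kc)
    {ψ : ParHom N (ZMod n)} {F : ℍ → ℂ} (hF : IsKummerRep N n ψ F)
    (hf : HasQSeries 1 F (seriesToC (r : LaurentSeries ℚb))) :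
    ((transpHom hζ γ r : coverRing N n A Kc) : LaurentSeries ℚb) =
      HahnSeries.C (ζ ^ ((ψ : Additive (Gamma0 N) →+ ZMod n) (Additive.ofMul γ⁻¹)).val) *
        (r : LaurentSeries ℚb) := by
  show ((transpFun hζ γ⁻¹ r : coverRing N n A Kc) : LaurentSeries ℚb) = _
  exact (exists_transp hζ γ⁻¹ r).choose_spec.unique (isTransp_rep hζ γ⁻¹ hF hf)

theorem transpHom_C (hζ : HasZeta n Kc ζ) (γ : Gamma0 N) {x : ℚb} (hx : x ∈ Kc) :
    transpHom hζ γ (⟨HahnSeries.C x, C_mem_coverRing hx⟩ : coverRing N n A Kc) =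
      ⟨HahnSeries.C x, C_mem_coverRing hx⟩ :=
  transpFun_eq hζ (IsTransp.const _ x)

theorem transpHom_congr (hζ : HasZeta n Kc ζ) {γ δ : Gamma0 N}
    (h : ∀ ψ : ParHom N (ZMod n), (ψ : Additive (Gamma0 N) →+ ZMod n) (Additive.ofMul γ) =
      (ψ : Additive (Gamma0 N) →+ ZMod n) (Additive.ofMul δ)) :
    (transpHom hζ γ : RingAut (coverRing N n A Kc)) = transpHom hζ δ := by
  refine RingEquiv.ext fun s => ?_
  obtain ⟨s, hs⟩ := s
  induction hs using Subring.closure_induction with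
  | mem r hr =>
    obtain ⟨hb, ψ, F, hF, hf⟩ := hr
    refine Subtype.ext ?_
    rw [transpHom_rep hζ γ ⟨r, Subring.subset_closure ⟨hb, ψ, F, hF, hf⟩⟩ hF hf,
      transpHom_rep hζ δ ⟨r, Subring.subset_closure ⟨hb, ψ, F, hF, hf⟩⟩ hF hf,
      ofMul_inv, ofMul_inv, map_neg, map_neg, h ψ]
  | zero => exact ((transpHom hζ γ).map_zero).trans ((transpHom hζ δ).map_zero).symm
  | one => exact ((transpHom hζ γ).map_one).trans ((transpHom hζ δ).map_one).symm
  | add x y hx' hy' hx hy =>
    rw [show (⟨x + y, _⟩ : coverRing N n A Kc) = ⟨x, hx'⟩ + ⟨y, hy'⟩ from rfl, map_add, map_add,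
      hx, hy]
  | neg x hx' hx =>
    rw [show (⟨-x, _⟩ : coverRing N n A Kc) = -⟨x, hx'⟩ from rfl, map_neg, map_neg, hx]
  | mul x y hx' hy' hx hy =>
    rw [show (⟨x * y, _⟩ : coverRing N n A Kc) = ⟨x, hx'⟩ * ⟨y, hy'⟩ from rfl, map_mul, map_mul,
      hx, hy]

/-- An invariant series is the series of a modular function. -/
theorem exists_modFun_of_fixed (hζ : HasZeta n Kc ζ) (s : coverRing N n A Kc)
    (h : ∀ γ : Gamma0 N, transpHom hζ γ s = s) :
    ∃ F, IsModFun (Gamma0 N) F ∧ HasQSeries 1 F (seriesToC (s : LaurentSeries ℚb)) := by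
  obtain ⟨F, hF, hc, h1, -⟩ := (exists_transp hζ 1 s).choose_spec
  refine ⟨F, ⟨hF, fun γ hγ τ => ?_, hc⟩, h1⟩
  obtain ⟨G, hG, -, h1', h2'⟩ := (exists_transp hζ (⟨γ, hγ⟩ : Gamma0 N) s).choose_spec
  obtain rfl := eq_of_hasQSeries hF hG h1 h1'
  have he : transpFun hζ (⟨γ, hγ⟩ : Gamma0 N) s = s := by
    have := h (⟨γ, hγ⟩ : Gamma0 N)⁻¹
    rwa [show transpHom hζ (⟨γ, hγ⟩ : Gamma0 N)⁻¹ s = transpFun hζ (⟨γ, hγ⟩⁻¹⁻¹) s from rfl,
      inv_inv] at this
  rw [show (exists_transp hζ (⟨γ, hγ⟩ : Gamma0 N) s).choose = s from he] at h2'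
  exact congrFun (eq_of_hasQSeries (mdifferentiable_comp_smul hF γ) hF h2' h1) τ

/-! ## The fraction field -/

variable (N n A Kc)

/-- The field of the cover. -/
abbrev CoverField : Type := FractionRing (coverRing N n A Kc)

variable {N n A Kc}

/-- The expansion at infinity. -/
def coverEmb : CoverField N n A Kc →+* LaurentSeries ℚb :=
  IsFractionRing.lift (g := (coverRing N n A Kc).subtype) Subtype.val_injective

theorem coverEmb_algebraMap (s : coverRing N n A Kc) :
    coverEmb (algebraMap _ (CoverField N n A Kc) s) = (s : LaurentSeries ℚb) :=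
  IsFractionRing.lift_algebraMap _ s

theorem exists_div (z : CoverField N n A Kc) :
    ∃ a b : coverRing N n A Kc, b ≠ 0 ∧ z * algebraMap _ _ b = algebraMap _ _ a := by
  obtain ⟨a, b, hb, rfl⟩ := IsFractionRing.div_surjective (coverRing N n A Kc) z
  exact ⟨a, b, nonZeroDivisors.ne_zero hb, div_mul_cancel₀ _
    ((map_ne_zero_iff _ (IsFractionRing.injective _ _)).mpr (nonZeroDivisors.ne_zero hb))⟩

/-- The constant of the cover field. -/
def coverC {x : ℚb} (hx : x ∈ Kc) : CoverField N n A Kc :=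
  algebraMap (coverRing N n A Kc) _ ⟨HahnSeries.C x, C_mem_coverRing hx⟩

theorem coverEmb_coverC {x : ℚb} (hx : x ∈ Kc) :
    coverEmb (coverC hx : CoverField N n A Kc) = HahnSeries.C x :=
  coverEmb_algebraMap _

theorem coverEmb_injective : Function.Injective (coverEmb (N := N) (n := n) (A := A) (Kc := Kc)) :=
  RingHom.injective _

theorem C_zpow (x : ℚb) : ∀ m : ℤ, (HahnSeries.C (x ^ m) : LaurentSeries ℚb) = HahnSeries.C x ^ m :=
  fun m => map_zpow₀ _ x m

theorem incA_C (x : A) : incA A (HahnSeries.C x) = HahnSeries.C (x : ℚb) := lmap_C _ _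

theorem gaussRed_C (x : A) (h : (HahnSeries.C (x : ℚb) : LaurentSeries ℚb) ∈ gaussRing A) :
    gaussRed A ⟨HahnSeries.C (x : ℚb), h⟩ = HahnSeries.C (residue A x) := by
  rw [show (⟨HahnSeries.C (x : ℚb), h⟩ : gaussRing A) = ⟨incA A (HahnSeries.C x),
    incA_mem_gaussRing _⟩ from Subtype.ext (incA_C x).symm, gaussRed_inc, redA, lmap_C]

/-- The valuation ring in the cover field. -/
def coverV : Subring (CoverField N n A Kc) := (gaussRing A).comap coverEmb

/-- The reduction on the cover field. -/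
def coverRed : (coverV : Subring (CoverField N n A Kc)) →+* LaurentSeries (ResidueField A) :=
  (gaussRed A).comp ((coverEmb.comp coverV.subtype).codRestrict (gaussRing A) fun z => z.2)

theorem coverRed_eq (z : (coverV : Subring (CoverField N n A Kc))) {a b : LaurentSeries A}
    (hb : redA A b ≠ 0) (h : coverEmb (z : CoverField N n A Kc) * incA A b = incA A a) :
    coverRed z = redA A a / redA A b :=
  gaussRed_eq _ hb h

variable {η : ℕ} {ϖ : AlgebraicClosure ℚ}

theorem coverC_ne_zero {x : ℚb} (hx : x ∈ Kc) (h0 : x ≠ 0) :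
    (coverC hx : CoverField N n A Kc) ≠ 0 := fun h => by
  have h1 := congrArg coverEmb h
  rw [coverEmb_coverC, map_zero] at h1
  exact h0 (HahnSeries.C_injective (h1.trans (map_zero HahnSeries.C).symm))

theorem exists_zpow_mul (hη : η.Prime) (hA : A.LiesOverPrime η) (hϖ : IsUnif η A Kc ϖ)
    {z : CoverField N n A Kc} (hz : z ≠ 0) :
    ∃ (m : ℤ) (u u' : LaurentSeries A), redA A u ≠ 0 ∧ redA A u' ≠ 0 ∧
      coverEmb (coverC hϖ.mem ^ (-m) * z : CoverField N n A Kc) * incA A u' = incA A u := by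
  obtain ⟨a, b, hb, he⟩ := exists_div z
  have hza : (a : LaurentSeries ℚb) ≠ 0 := fun h0 => hz (by
    rw [show a = 0 from Subtype.ext h0, map_zero] at he
    exact (mul_eq_zero.mp he).resolve_right
      ((map_ne_zero_iff _ (IsFractionRing.injective _ _)).mpr hb))
  obtain ⟨m, u, hu, -, hua⟩ := exists_factor hη hA hϖ (coverRing_le a.2) hza
  obtain ⟨m', u', hu', -, hub⟩ := exists_factor hη hA hϖ (coverRing_le b.2)
    fun h0 => hb (Subtype.ext h0)
  have hϖ0 : (HahnSeries.C ϖ : LaurentSeries ℚb) ≠ 0 :=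
    (map_ne_zero_iff _ HahnSeries.C_injective).mpr (hϖ.ne_zero hη hA)
  refine ⟨m - m', u, u', hu, hu', ?_⟩
  have h1 := congrArg coverEmb he
  rw [map_mul, coverEmb_algebraMap, coverEmb_algebraMap, hua, hub, C_zpow, C_zpow] at h1
  rw [map_mul, map_zpow₀, coverEmb_coverC]
  generalize coverEmb z = Z at h1 ⊢
  rw [neg_sub, zpow_sub₀ hϖ0, div_mul_eq_mul_div, div_mul_eq_mul_div,
    div_eq_iff (zpow_ne_zero _ hϖ0), mul_comm (incA A u), ← h1]
  ring

theorem coverC_mem_coverV {x : ℚb} (hx : x ∈ Kc) (hxA : x ∈ A) :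
    (coverC hx : CoverField N n A Kc) ∈ coverV :=
  (Subring.mem_comap (s := gaussRing A) (f := coverEmb)).mpr (by
    rw [coverEmb_coverC hx, ← incA_C (A := A) ⟨x, hxA⟩]
    exact incA_mem_gaussRing _)

theorem coverRed_coverC {x : ℚb} (hx : x ∈ Kc) (hxA : x ∈ A) :
    coverRed (⟨coverC hx, coverC_mem_coverV hx hxA⟩ : (coverV : Subring (CoverField N n A Kc))) =
      HahnSeries.C (residue A ⟨x, hxA⟩) := by
  refine (coverRed_eq _ (a := HahnSeries.C ⟨x, hxA⟩) (b := 1)
    (by rw [map_one]; exact one_ne_zero) ?_).trans ?_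
  · rw [map_one, mul_one, incA_C]
    exact coverEmb_coverC hx
  · rw [redA, lmap_C, map_one, div_one]

theorem cover_dich (hη : η.Prime) (hA : A.LiesOverPrime η) (hϖ : IsUnif η A Kc ϖ)
    (z : CoverField N n A Kc) (hz : z ≠ 0) :
    ∃ (m : ℤ) (u : (coverV : Subring (CoverField N n A Kc))), coverRed u ≠ 0 ∧
      z = (coverC hϖ.mem) ^ m * (u : CoverField N n A Kc) := by
  obtain ⟨m, u, u', hu, hu', hwe⟩ := exists_zpow_mul hη hA hϖ hz
  have hc0 := coverC_ne_zero (N := N) (n := n) (A := A) hϖ.mem (hϖ.ne_zero hη hA)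
  have hmem : coverC hϖ.mem ^ (-m) * z ∈ (coverV : Subring (CoverField N n A Kc)) :=
    (Subring.mem_comap (s := gaussRing A) (f := coverEmb)).mpr ⟨u, u', hu', hwe⟩
  refine ⟨m, ⟨_, hmem⟩, ?_, ?_⟩
  · rw [coverRed_eq ⟨_, hmem⟩ hu' hwe]; exact div_ne_zero hu hu'
  · rw [← mul_assoc, ← zpow_add₀ hc0, add_neg_cancel, zpow_zero, one_mul]

/-- The Gauss valuation of the cover field. -/
def coverGauss (hη : η.Prime) (hA : A.LiesOverPrime η) (hϖ : IsUnif η A Kc ϖ) :
    GaussVal (CoverField N n A Kc) (LaurentSeries (ResidueField A)) where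
  V := coverV
  ρ := coverRed
  ϖ := ⟨coverC hϖ.mem, coverC_mem_coverV hϖ.mem ((A.valuation_le_one_iff _).mp hϖ.lt_one.le)⟩
  ϖ_ne := coverC_ne_zero hϖ.mem (hϖ.ne_zero hη hA)
  ρ_ϖ := (coverRed_coverC hϖ.mem ((A.valuation_le_one_iff _).mp hϖ.lt_one.le)).trans (by
    rw [(residue_eq_zero_iff _).mpr ((A.valuation_lt_one_iff
      (⟨ϖ, (A.valuation_le_one_iff _).mp hϖ.lt_one.le⟩ : A)).mpr hϖ.lt_one), map_zero])
  dich := cover_dich hη hA hϖ

/-- Translations on the field. -/
def coverAct (hζ : HasZeta n Kc ζ) : Gamma0 N →* RingAut (CoverField N n A Kc) :=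
  (IsFractionRing.ringEquivOfRingEquivHom (coverRing N n A Kc) (CoverField N n A Kc)).comp
    (transpHom hζ)

theorem coverAct_algebraMap (hζ : HasZeta n Kc ζ) (γ : Gamma0 N) (s : coverRing N n A Kc) :
    coverAct hζ γ (algebraMap _ (CoverField N n A Kc) s) = algebraMap _ _ (transpHom hζ γ s) :=
  IsFractionRing.ringEquivOfRingEquiv_algebraMap _ s

theorem coverAct_coverC (hζ : HasZeta n Kc ζ) (γ : Gamma0 N) {x : ℚb} (hx : x ∈ Kc) :
    coverAct hζ γ (coverC hx : CoverField N n A Kc) = coverC hx :=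
  (coverAct_algebraMap hζ γ _).trans (congrArg _ (transpHom_C hζ γ hx))

theorem finite_range_coverAct (hζ : HasZeta n Kc ζ) :
    Finite (coverAct (N := N) (A := A) hζ).range := by
  classical
  let v : Gamma0 N → ParHom N (ZMod n) → ZMod n :=
    fun γ ψ => (ψ : Additive (Gamma0 N) →+ ZMod n) (Additive.ofMul γ)
  refine Finite.of_surjective (fun x : Set.range v => (⟨coverAct hζ x.2.choose, x.2.choose, rfl⟩ :
    (coverAct (N := N) (A := A) hζ).range)) ?_
  rintro ⟨_, γ, rfl⟩
  refine ⟨⟨v γ, γ, rfl⟩, Subtype.ext ?_⟩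
  have h1 : v (Exists.choose (⟨γ, rfl⟩ : ∃ δ, v δ = v γ)) = v γ :=
    Exists.choose_spec (⟨γ, rfl⟩ : ∃ δ, v δ = v γ)
  exact congrArg (IsFractionRing.ringEquivOfRingEquivHom _ _)
    (transpHom_congr hζ fun ψ => congrFun h1 ψ)

/-- An invariant element is a quotient of invariant series. -/
theorem exists_fixed_div (hζ : HasZeta n Kc ζ) {z : CoverField N n A Kc}
    (hz : ∀ γ : Gamma0 N, coverAct hζ γ z = z) :
    ∃ P Q : coverRing N n A Kc, Q ≠ 0 ∧ (∀ γ, transpHom hζ γ P = P) ∧
      (∀ γ, transpHom hζ γ Q = Q) ∧ z * algebraMap _ _ Q = algebraMap _ _ P := by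
  classical
  have := finite_range_coverAct (N := N) (A := A) hζ
  let _ : Fintype (coverAct (N := N) (A := A) hζ).range := Fintype.ofFinite _
  obtain ⟨a, b, hb, he⟩ := exists_div z
  choose g hg using fun h : (coverAct (N := N) (A := A) hζ).range => h.2
  set Q := ∏ h, transpHom hζ (g h) b
  have hQ : algebraMap _ (CoverField N n A Kc) Q =
      ∏ h : (coverAct (N := N) (A := A) hζ).range,
        (h : RingAut (CoverField N n A Kc)) (algebraMap _ _ b) := by
    rw [map_prod]
    exact Finset.prod_congr rfl fun h _ => by rw [← coverAct_algebraMap, hg]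
  set one' : (coverAct (N := N) (A := A) hζ).range := 1
  set P := a * ∏ h ∈ Finset.univ.erase one', transpHom hζ (g h) b
  have hP : z * algebraMap _ _ Q = algebraMap _ _ P := by
    rw [hQ, map_mul, map_prod, ← Finset.mul_prod_erase _ _ (Finset.mem_univ one'), ← mul_assoc,
      show ((one' : RingAut (CoverField N n A Kc))) (algebraMap _ _ b) = algebraMap _ _ b from rfl,
      he]
    congr 1
    exact Finset.prod_congr rfl fun h _ => by rw [← coverAct_algebraMap, hg]
  have hQf : ∀ γ, transpHom hζ γ Q = Q := fun γ => by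
    apply IsFractionRing.injective (coverRing N n A Kc) (CoverField N n A Kc)
    rw [← coverAct_algebraMap, hQ, map_prod]
    exact Fintype.prod_equiv
      (Equiv.mulLeft (⟨coverAct hζ γ, γ, rfl⟩ : (coverAct (N := N) (A := A) hζ).range)) _ _
      fun h => rfl
  refine ⟨P, Q, ?_, fun γ => ?_, hQf, hP⟩
  · exact Finset.prod_ne_zero_iff.mpr fun h _ => (map_ne_zero_iff _
      (transpHom hζ (g h)).injective).mpr hb
  · apply IsFractionRing.injective (coverRing N n A Kc) (CoverField N n A Kc)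
    rw [← coverAct_algebraMap, ← hP, map_mul, hz, coverAct_algebraMap, hQf]

/-! ## The Galois action -/

theorem seriesConj_mem_coverRing {σ : GQ} (h : EC.ActsInertially A σ)
    (hK : ∀ x ∈ Kc, σ x ∈ Kc) {s : LaurentSeries ℚb} (hs : s ∈ coverRing N n A Kc) :
    seriesConj σ s ∈ coverRing N n A Kc := by
  induction hs using Subring.closure_induction with
  | mem r hr =>
    obtain ⟨⟨hL, c, hc, hcA, hint⟩, ψ, F, hF, hf⟩ := hr
    obtain ⟨F', hF', hf'⟩ := (kummerGalois N n).galois_spec σ ψ F r hF hf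
    refine rep_mem_coverRing (mem_bddSer_of_bound (mem_LSer.mpr fun k => hK _ (mem_LSer.mp hL k))
      (c := σ c) ((map_ne_zero _).mpr hc) ?_) hF' hf'
    rw [show (HahnSeries.C (σ c) : LaurentSeries ℚb) = seriesConj σ (HahnSeries.C c) from
      (lmap_C σ.toRingEquiv.toRingHom c).symm, ← seriesConj_mul']
    exact seriesConj_mem_intSeriesA h hint
  | zero => rw [seriesConj_eq_lmap, map_zero]; exact zero_mem _
  | one => rw [seriesConj_eq_lmap, map_one]; exact one_mem _
  | add x y _ _ hx hy =>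
    rw [seriesConj_eq_lmap] at hx hy ⊢; rw [map_add]; exact add_mem hx hy
  | neg x _ hx => rw [seriesConj_eq_lmap] at hx ⊢; rw [map_neg]; exact neg_mem hx
  | mul x y _ _ hx hy => rw [seriesConj_mul']; exact mul_mem hx hy

theorem seriesConj_injective (σ : GQ) : Function.Injective (seriesConj σ) :=
  fun _ _ h => lmap_injective (φ := σ.toRingEquiv.toRingHom) σ.toRingEquiv.injective h

/-- Coefficient conjugation on the ring. -/
def ringConj {σ : GQ} (h : EC.ActsInertially A σ) (hK : ∀ x ∈ Kc, σ x ∈ Kc) :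
    coverRing N n A Kc →+* coverRing N n A Kc :=
  ((lmap σ.toRingEquiv.toRingHom).comp (coverRing N n A Kc).subtype).codRestrict _
    fun s => seriesConj_mem_coverRing h hK s.2

/-- Coefficient conjugation on the field. -/
def fieldConj {σ : GQ} (h : EC.ActsInertially A σ) (hK : ∀ x ∈ Kc, σ x ∈ Kc) :
    CoverField N n A Kc →+* CoverField N n A Kc :=
  IsFractionRing.lift (g := (algebraMap (coverRing N n A Kc) _).comp (ringConj h hK))
    ((IsFractionRing.injective _ _).comp fun _ _ he =>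
      Subtype.ext (seriesConj_injective σ (congrArg Subtype.val he)))

theorem fieldConj_algebraMap {σ : GQ} (h : EC.ActsInertially A σ) (hK : ∀ x ∈ Kc, σ x ∈ Kc)
    (s : coverRing N n A Kc) :
    fieldConj h hK (algebraMap _ (CoverField N n A Kc) s) = algebraMap _ _ (ringConj h hK s) :=
  IsFractionRing.lift_algebraMap _ s

theorem coverEmb_fieldConj {σ : GQ} (h : EC.ActsInertially A σ) (hK : ∀ x ∈ Kc, σ x ∈ Kc)
    (z : CoverField N n A Kc) : coverEmb (fieldConj h hK z) = seriesConj σ (coverEmb z) := by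
  suffices he : (coverEmb.comp (fieldConj h hK) : CoverField N n A Kc →+* LaurentSeries ℚb) =
      (lmap σ.toRingEquiv.toRingHom).comp coverEmb from RingHom.congr_fun he z
  refine IsLocalization.ringHom_ext (nonZeroDivisors (coverRing N n A Kc)) (RingHom.ext fun s => ?_)
  simp only [RingHom.comp_apply, fieldConj_algebraMap, coverEmb_algebraMap]
  rfl

theorem fieldConj_mem {σ : GQ} (h : EC.ActsInertially A σ) (hK : ∀ x ∈ Kc, σ x ∈ Kc)
    (z : (coverV : Subring (CoverField N n A Kc))) :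
    ∃ hm : fieldConj h hK (z : CoverField N n A Kc) ∈ coverV,
      coverRed ⟨_, hm⟩ = coverRed z := by
  obtain ⟨hm, he⟩ := seriesConj_mem_gaussRing h ⟨coverEmb (z : CoverField N n A Kc), z.2⟩
  have hm' : fieldConj h hK (z : CoverField N n A Kc) ∈ coverV := by
    show coverEmb _ ∈ gaussRing A
    rw [coverEmb_fieldConj]
    exact hm
  exact ⟨hm', (congrArg (gaussRed A) (Subtype.ext (coverEmb_fieldConj h hK _))).trans he⟩

/-! ## Algebraicity over `j` -/

theorem exists_relation_modFun {φ : ℍ → ℂ} (hφ : IsModFun (Gamma0 N) φ) {g : LaurentSeries ℚb}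
    (hg : HasQSeries 1 φ (seriesToC g)) :
    ∃ P : Polynomial (Polynomial ℚb), P ≠ 0 ∧ lEval (ModularCurve.jqModC ℚb) g P = 0 := by
  obtain ⟨PA, hPA⟩ := exists_lift_of_fixed fun σ hσ =>
    gmap_orbitPoly_eq σ (φ := (⟨φ, hφ⟩ : modFuns (Gamma0 N))) hg (by ext m; exact hσ _)
  refine ⟨PA, fun h0 => (orbitPoly_monic (⟨φ, hφ⟩ : modFuns (Gamma0 N))).ne_zero
    (by rw [← hPA, h0, Polynomial.map_zero]), seriesToC_injective ?_⟩
  have hval : seriesToC (lEval (ModularCurve.jqModC ℚb) g PA) =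
      biEval jq (seriesToC g) (PA.map (Polynomial.mapRingHom qbarToC)) := by
    rw [seriesToC_eq_lmap, lmap_lEval, lEval_eq_biEval, lmap_jqModC, ← jq_eq_jqModC]
    rfl
  rw [hval, hPA, seriesToC_eq_lmap (f := (0 : LaurentSeries ℚb)), map_zero]
  have h := hasQSeries_biEval (F := (⟨φ, hφ⟩ : modFuns (Gamma0 N))) hg
    (orbitPoly (⟨φ, hφ⟩ : modFuns (Gamma0 N)))
  rw [biEval_orbitPoly_self] at h
  exact h.eq_zero one_pos

theorem exists_relation (z : CoverField N n A Kc) :
    ∃ P : Polynomial (Polynomial ℚb), P ≠ 0 ∧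
      lEval (ModularCurve.jqModC ℚb) (coverEmb z) P = 0 := by
  let _ : Algebra (Polynomial ℚb) (LaurentSeries ℚb) :=
    (Polynomial.eval₂RingHom HahnSeries.C (ModularCurve.jqModC ℚb)).toAlgebra
  suffices h : IsAlgebraic (Polynomial ℚb) (coverEmb z) from h
  have hS : ∀ s ∈ coverRing N n A Kc, IsAlgebraic (Polynomial ℚb) s := by
    intro s hs
    refine (Subalgebra.mem_algebraicClosure _ _).mp ?_
    refine (Subring.closure_le (t := (Subalgebra.algebraicClosure (Polynomial ℚb)
      (LaurentSeries ℚb)).toSubring)).mpr ?_ hs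
    rintro r ⟨-, ψ, F, hF, hf⟩
    refine IsAlgebraic.of_pow (NeZero.pos n) ?_
    exact exists_relation_modFun (isModFun_pow_rep hF hf).1 (isModFun_pow_rep hF hf).2
  obtain ⟨a, b, hb, he⟩ := exists_div z
  have he' := congrArg coverEmb he
  rw [map_mul, coverEmb_algebraMap, coverEmb_algebraMap] at he'
  refine IsAlgebraic.of_mul (y := (b : LaurentSeries ℚb))
    (mem_nonZeroDivisors_of_ne_zero fun h0 => hb (Subtype.ext h0)) (hS _ b.2) ?_
  rw [mul_comm, he']
  exact hS _ a.2

theorem order_jqModC_field (k : Type*) [Field k] : (ModularCurve.jqModC k).order = -1 := by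
  have h1 : (ModularCurve.jqModC k).coeff (-1 : ℤ) ≠ 0 := by
    rw [ModularCurve.coeff_jqModC_neg_one]; exact one_ne_zero
  refine le_antisymm (HahnSeries.order_le_of_coeff_ne_zero h1) (not_lt.mp fun hlt => ?_)
  have hne : ModularCurve.jqModC k ≠ 0 := fun h0 => h1 (by rw [h0, HahnSeries.coeff_zero])
  refine HahnSeries.coeff_order_eq_zero.not.mpr hne ?_
  generalize (ModularCurve.jqModC k).order = o at hlt ⊢
  rw [ModularCurve.jqModC, HahnSeries.coeff_single_mul, one_mul, HahnSeries.ofPowerSeries_apply,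
    HahnSeries.embDomain_of_notMem_range]
  rintro ⟨i, hi⟩
  change (i : ℤ) = _ at hi
  omega

/-- A relation with reduced coefficients. -/
theorem exists_red_relation (z : gaussRing A) {P : Polynomial (Polynomial ℚb)} (hP : P ≠ 0)
    (h : lEval (ModularCurve.jqModC ℚb) (z : LaurentSeries ℚb) P = 0) :
    ∃ Q : Polynomial (Polynomial (ResidueField A)), Q ≠ 0 ∧
      evalPair (ModularCurve.jqModC (ResidueField A)) (gaussRed A z) Q = 0 := by
  classical
  obtain ⟨c, hcS, hmax⟩ := (coeffSet P).exists_max_image A.valuation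
    ⟨0, by simp [coeffSet]⟩
  have hc : c ≠ 0 := fun h0 => hP (Polynomial.ext fun i => Polynomial.ext fun j => by
    have := hmax _ (coeff_mem_coeffSet P i j)
    rw [h0, map_zero, le_zero_iff, map_eq_zero] at this
    simpa using this)
  have hint : ∀ i j, c⁻¹ * (P.coeff i).coeff j ∈ A := fun i j => by
    rw [← A.valuation_le_one_iff, map_mul, map_inv₀,
      inv_mul_le_iff₀ (zero_lt_iff.mpr ((map_ne_zero _).mpr hc)), mul_one]
    exact hmax _ (coeff_mem_coeffSet P i j)
  set P' : Polynomial (Polynomial ℚb) := Polynomial.C (Polynomial.C c⁻¹) * P with hP'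
  obtain ⟨G, hG⟩ : ∃ G : Polynomial (Polynomial A),
      G.map (Polynomial.mapRingHom A.subtype) = P' := by
    refine (Polynomial.mem_lifts _).mp ((Polynomial.lifts_iff_coeff_lifts _).mpr fun i => ?_)
    refine (Polynomial.mem_lifts _).mp ((Polynomial.lifts_iff_coeff_lifts _).mpr fun j => ?_)
    exact ⟨⟨_, hint i j⟩, by rw [hP', Polynomial.coeff_C_mul, Polynomial.coeff_C_mul]; rfl⟩
  let cst : A →+* gaussRing A :=
    ((incA A).comp HahnSeries.C).codRestrict _ fun x => incA_mem_gaussRing _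
  let J : gaussRing A := ⟨incA A (ModularCurve.jqModC A), incA_mem_gaussRing _⟩
  let Ψ : Polynomial (Polynomial A) →+* gaussRing A :=
    Polynomial.eval₂RingHom (Polynomial.eval₂RingHom cst J) z
  have h1 : (gaussRing A).subtype.comp Ψ = (lEval (ModularCurve.jqModC ℚb) (z : LaurentSeries ℚb)).comp
      (Polynomial.mapRingHom (Polynomial.mapRingHom A.subtype)) := by
    refine Polynomial.ringHom_ext (fun a => ?_) (by simp [Ψ, lEval])
    suffices h2 : ((gaussRing A).subtype.comp (Polynomial.eval₂RingHom cst J)) =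
        (Polynomial.eval₂RingHom HahnSeries.C (ModularCurve.jqModC ℚb)).comp
          (Polynomial.mapRingHom A.subtype) by
      simpa [Ψ, lEval] using RingHom.congr_fun h2 a
    refine Polynomial.ringHom_ext (fun x => ?_) ?_
    · simp [cst]; exact lmap_C _ _
    · simp only [RingHom.comp_apply, Polynomial.coe_eval₂RingHom, Polynomial.eval₂_X,
        Polynomial.coe_mapRingHom, Polynomial.map_X, Subring.coe_subtype]
      exact lmap_jqModC _
  have h2 : (gaussRed A).comp Ψ = (evalPair (ModularCurve.jqModC (ResidueField A)) (gaussRed A z)).comp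
      (Polynomial.mapRingHom (Polynomial.mapRingHom (residue A))) := by
    refine Polynomial.ringHom_ext (fun a => ?_) (by simp [Ψ, evalPair])
    suffices h3 : ((gaussRed A).comp (Polynomial.eval₂RingHom cst J)) =
        (Polynomial.eval₂RingHom HahnSeries.C (ModularCurve.jqModC (ResidueField A))).comp
          (Polynomial.mapRingHom (residue A)) by
      simpa [Ψ, evalPair] using RingHom.congr_fun h3 a
    refine Polynomial.ringHom_ext (fun x => ?_) ?_
    · simp only [RingHom.comp_apply, Polynomial.coe_eval₂RingHom, Polynomial.eval₂_C,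
        Polynomial.coe_mapRingHom, Polynomial.map_C]
      exact (gaussRed_inc _).trans (lmap_C _ _)
    · simp only [RingHom.comp_apply, Polynomial.coe_eval₂RingHom, Polynomial.eval₂_X,
        Polynomial.coe_mapRingHom, Polynomial.map_X]
      exact (gaussRed_inc _).trans (lmap_jqModC _)
  refine ⟨G.map (Polynomial.mapRingHom (residue A)), fun h0 => ?_, ?_⟩
  · obtain ⟨i, j, hij⟩ : ∃ i j, (P.coeff i).coeff j = c := by
      simp only [coeffSet, Finset.mem_insert, Finset.mem_biUnion, Finset.mem_image] at hcS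
      obtain h' | ⟨i, -, j, -, hij⟩ := hcS
      · exact absurd h' hc
      · exact ⟨i, j, hij⟩
    have h3 := congrArg (fun R : Polynomial (Polynomial (ResidueField A)) => (R.coeff i).coeff j) h0
    simp only [Polynomial.coeff_map, Polynomial.coe_mapRingHom, Polynomial.coeff_zero] at h3
    have h4 := congrArg (fun R : Polynomial (Polynomial ℚb) => (R.coeff i).coeff j) hG
    simp only [Polynomial.coeff_map, Polynomial.coe_mapRingHom, hP', Polynomial.coeff_C_mul, hij,
      inv_mul_cancel₀ hc] at h4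
    rw [show (G.coeff i).coeff j = 1 from Subtype.ext h4, map_one] at h3
    exact one_ne_zero h3
  · have h5 : Ψ G = 0 := Subtype.ext (by
      have := RingHom.congr_fun h1 G
      simp only [RingHom.comp_apply, Polynomial.coe_mapRingHom, hG, hP', map_mul, h, mul_zero]
        at this
      exact this)
    have := RingHom.congr_fun h2 G
    simp only [RingHom.comp_apply, Polynomial.coe_mapRingHom, h5, map_zero] at this
    exact this.symm

end Fermat.Agent.Mazur3.Inertia
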